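/-
W2-C (S55), local inputs for (C2) (helper5): the `p`-torsion of the local `H²_lc(G_q, X q)` is
cyclic of order `p`.

* `H5LP.h5lp_dim1_gen`  (generic): inflation injective + `p`-class modules at all finite levels
  imply that the `p`-torsion of `H²_lc` is cyclic (`x ≠ 0`, `p x = p y = 0` ⇒ `y ∈ ℤ x`);
* `H5LP.h5lp_dim1 p q`  (LOC-P2): the local case;
* `H5LP.h5lp_exists p q` (LOC-P1): there is a class of order `p` in `H²_lc(G_q, X q)`
  (helper24's LOCDEG: a cyclotomic level of local degree divisible by `p`; `H²` of the finite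
  level is cyclic of order the local degree, block B; local inflation is injective).
-/
import Mathlib
import Fermat.Agent.CFT2.E.LocNTInfl_helper5
import Fermat.Agent.CFT2.E.LocNTPcm_helper5
import Fermat.Agent.CFT2.E.LocDeg_helper24
import Fermat.Agent.CFT2.E.W_dim1
import Fermat.Agent.CFT2.B.Final_helper3

set_option autoImplicit false
set_option linter.style.haveILetI false
set_option linter.unusedSectionVars false
set_option linter.unusedVariables false

noncomputable section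

namespace H5LP

open H15D H15F H14PT groupCohomology CategoryTheory ExtCitation H3LB H5B

section generic

variable {G : Type} [Group G] (𝓥 : Levels G) (A : Rep.{0} ℤ G)

/-- **lc dim1, generic**: if inflation is injective on `H²` and all finite levels are `p`-class
modules, the `p`-torsion of `H²_lc(G, A)` is cyclic. -/
theorem h5lp_dim1_gen (p : ℕ) [Fact p.Prime]
    (hinj : ∀ L : 𝓥.Lv, Function.Injective (infl₂ 𝓥 A L))
    (hpcm : ∀ L : 𝓥.Lv, ∃ γ : groupCohomology (finLv 𝓥 A L) 2,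
      H20A.IsPClassModule p (finLv 𝓥 A L) γ)
    (x y : lcH2 𝓥 A) (px : p • x = 0) (py : p • y = 0) (x0 : x ≠ 0) : ∃ k : ℤ, y = k • x := by
  obtain ⟨L0, hL0⟩ := exists_infl₂_eq₂ 𝓥 A x y
  obtain ⟨xL, yL, hxL, hyL⟩ := hL0 L0 le_rfl
  have pxL : p • xL = 0 := hinj L0 (by rw [map_nsmul, hxL, px, map_zero])
  have pyL : p • yL = 0 := hinj L0 (by rw [map_nsmul, hyL, py, map_zero])
  have x0L : xL ≠ 0 := by
    intro h
    apply x0
    rw [← hxL, h, map_zero]
  obtain ⟨γ, hγ⟩ := hpcm L0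
  obtain ⟨k, hk⟩ := H14PT.dim1_fin (finLv 𝓥 A L0) γ hγ xL yL pxL pyL x0L
  exact ⟨k, by rw [← hyL, ← hxL, hk, map_zsmul]⟩

end generic

/-- primes are prime. -/
local instance factPrimeOfPrimesLP (q : Nat.Primes) : Fact (q : ℕ).Prime := ⟨q.2⟩

/-- **LOC-P2** (local dim1): the `p`-torsion of `H²_lc(G_q, X q)` is cyclic -/
theorem h5lp_dim1 (p : ℕ) [Fact p.Prime] (q : Nat.Primes)
    (x y : lcH2 (𝓥q q) (Rep.of (ρX q))) (px : p • x = 0) (py : p • y = 0) (x0 : x ≠ 0) :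
    ∃ k : ℤ, y = k • x :=
  h5lp_dim1_gen (𝓥q q) (Rep.of (ρX q)) p (H5NT.h5nt_infl₂_injective_X q)
    (H5NT.h5nt_pcm_X p q) x y px py x0

attribute [local instance 1100] Rep.hV2

/-- **LOC-P1**: a class of order `p` in `H²_lc(G_q, X q)` -/
theorem h5lp_exists (p q : Nat.Primes) :
    ∃ x : lcH2 (𝓥q q) (Rep.of (ρX q)), x ≠ 0 ∧ (p : ℕ) • x = 0 := by
  obtain ⟨U, ⟨F, hF, hFn, rfl⟩, hdvd⟩ :=
    H24LD.h24ld_locdeg {p} p (Finset.mem_singleton_self p) q
  haveI := hF.1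
  haveI : Normal ℚ F := h3lf_normal_of_fixingSubgroup_normal F hFn
  haveI : FiniteDimensional ℚ_[(q : ℕ)] (localField (q : ℕ) F) := h3lf_finiteDimensional (q : ℕ) F
  haveI : Normal ℚ_[(q : ℕ)] (localField (q : ℕ) F) := h3lf_normal (q : ℕ) F
  haveI : IsGalois ℚ_[(q : ℕ)] (localField (q : ℕ) F) := ⟨⟩
  obtain ⟨L, hU'⟩ : ∃ L : (𝓥q q).Lv,
      L.U = F.fixingSubgroup.comap (localGaloisToGlobal (q : ℕ)) :=
    ⟨⟨F.fixingSubgroup.comap (primeLocalToGlobal q), ⟨F, hF.1, hFn, rfl⟩⟩, rfl⟩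
  have hdvd2 : (p : ℕ) ∣ L.U.index := by
    rw [hU']
    exact hdvd
  obtain ⟨hcard, hcyc⟩ := h3lb_h2Card (q : ℕ) ℚ_[(q : ℕ)] (localField (q : ℕ) F)
  -- the order of `H²` is the index of the level
  have h1 : Module.finrank ℚ_[(q : ℕ)] (localField (q : ℕ) F) = L.U.index := by
    rw [← IsGalois.card_aut_eq_finrank, Subgroup.index_eq_card]
    exact (Nat.card_congr (h5bl_e (q : ℕ) F L.U hU').toEquiv).symm
  have hdvd' : (p : ℕ) ∣
      Nat.card (groupCohomology (Rep.ofAlgebraAutOnUnits ℚ_[(q : ℕ)] (localField (q : ℕ) F)) 2) := by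
    rw [hcard, h1]
    exact hdvd2
  haveI : Finite (groupCohomology
      (Rep.ofAlgebraAutOnUnits ℚ_[(q : ℕ)] (localField (q : ℕ) F)) 2) := by
    apply Nat.finite_of_card_ne_zero
    rw [hcard]
    exact Module.finrank_pos.ne'
  obtain ⟨x0, hx0⟩ := exists_prime_addOrderOf_dvd_card' (p : ℕ) hdvd'
  have hx0ne : x0 ≠ 0 := by
    intro h
    rw [h, addOrderOf_zero] at hx0
    exact p.2.one_lt.ne hx0
  have hpx0 : (p : ℕ) • x0 = 0 := by
    rw [← hx0]
    exact addOrderOf_nsmul_eq_zero x0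
  let i := h5bl_cohIso (q : ℕ) F L.U hU' 2
  have hx1ne0 : i.inv x0 ≠ 0 := by
    intro h
    apply hx0ne
    have h2 : i.hom (i.inv x0) = x0 := Iso.inv_hom_id_apply i x0
    rw [← h2, h]
    exact map_zero i.hom.hom
  have hpx10 : (p : ℕ) • i.inv x0 = 0 := by
    have h3 : (p : ℕ) • i.inv x0 = i.inv ((p : ℕ) • x0) := (map_nsmul i.inv.hom _ _).symm
    rw [h3, hpx0]
    exact map_zero i.inv.hom
  obtain ⟨x1, hx1ne, hpx1⟩ : ∃ x1 : groupCohomology (finLv (𝓥q q) (Rep.of (ρX q)) L) 2,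
      x1 ≠ 0 ∧ (p : ℕ) • x1 = 0 := ⟨i.inv x0, hx1ne0, hpx10⟩
  refine ⟨infl₂ (𝓥q q) (Rep.of (ρX q)) L x1, ?_, ?_⟩
  · intro h
    apply hx1ne
    apply H5NT.h5nt_infl₂_injective_X q L
    rw [h, map_zero]
  · rw [← map_nsmul, hpx1, map_zero]

end H5LP

end
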