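/-
W2-C (S55), reduction of (C2) (helper5):

  `C2B S p hS  ⇐  TDim1 S p + TSh2 S + C2Key S p hS`

where `C2Key` asks, for every `q ∈ S`, for ONE `p`-torsion class `z₀ ∈ H²_S(I)` supported at `q`
whose image in `H²_S(B)` is nonzero.  (Local dim1 `H5LP.h5lp_dim1` + Shapiro injectivity: every
`p`-torsion class supported at `q` is a multiple of `z₀`.)
-/
import Mathlib
import Fermat.Agent.CFT2.C2.LocP_helper5
import Fermat.Agent.CFT2.E.Interface

set_option autoImplicit false
set_option linter.style.haveILetI false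
set_option linter.unusedSectionVars false
set_option linter.unusedVariables false

noncomputable section

namespace H5LP

open H15D H15F H14PT groupCohomology ExtCitation

/-- primes are prime. -/
local instance factPrimeOfPrimesLR (q : Nat.Primes) : Fact (q : ℕ).Prime := ⟨q.2⟩

variable (S : Finset Nat.Primes) (p : ℕ)

/-- **(C2-KEY)**: for every `q ∈ S` there is a `p`-torsion class of `H²_S(I)` supported at `q`
with nonzero image in `H²_S(B)`. -/
def C2Key (hS : S.Nonempty) : Prop := ∀ q : S,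
  ∃ z₀ : lcH2 (levelsS S) (Rep.of (ρI S)), p • z₀ = 0 ∧
    (∀ q' : S, q' ≠ q → (prIq S q').H2 z₀ = 0) ∧ (sEIB S hS).Pπ.H2 z₀ ≠ 0

variable {S p}

/-- `x ≠ 0`, `p x = 0`, `k x = 0`: then `k y = 0` for every `y` killed by `p` -/
theorem h5lp_zsmul_eq_zero {A B : Type*} [AddCommGroup A] [AddCommGroup B] (hp : p.Prime)
    {x : A} (x0 : x ≠ 0) (px : p • x = 0) (k : ℤ) (hk : k • x = 0) {y : B} (py : p • y = 0) :
    k • y = 0 := by
  have hdvd : (p : ℤ) ∣ k := by
    by_contra hnd
    have hcop : IsCoprime (p : ℤ) k := (Nat.prime_iff_prime_int.1 hp).coprime_iff_not_dvd.2 hnd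
    obtain ⟨s, t, hst⟩ := hcop
    apply x0
    have h1 : (s * (p : ℤ) + t * k) • x = x := by rw [hst, one_smul]
    rw [← h1, add_smul, mul_smul, mul_smul, hk, smul_zero, add_zero, natCast_zsmul, px,
      smul_zero]
  obtain ⟨c, rfl⟩ := hdvd
  rw [mul_comm, mul_smul, natCast_zsmul, py, smul_zero]

/-- **(C2) from (C2-KEY)**, `TDim1` and `TSh2` -/
theorem h5lp_c2b_of [Fact p.Prime] (hS : S.Nonempty) (hDim1 : TDim1 S p) (hSh2 : TSh2 S)
    (hKey : C2Key S p hS) : C2B S p hS := by
  intro q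
  obtain ⟨z0, pz0, hz0s, hz0π⟩ := hKey q
  have hp : p.Prime := Fact.out
  have hz0q : (prIq S q).H2 z0 ≠ 0 := by
    intro h
    apply hz0π
    have h0 : z0 = 0 := hSh2 z0 (fun q' => by
      by_cases hq : q' = q
      · subst hq
        exact h
      · exact hz0s q' hq)
    rw [h0, map_zero]
  have pπz0 : p • (sEIB S hS).Pπ.H2 z0 = 0 := by rw [← map_nsmul, pz0, map_zero]
  constructor
  · intro z pz hzs hzπ
    obtain ⟨k, hk⟩ := h5lp_dim1 p q.1 ((prIq S q).H2 z0) ((prIq S q).H2 z)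
      (by rw [← map_nsmul, pz0, map_zero]) (by rw [← map_nsmul, pz, map_zero]) hz0q
    have hzk : z = k • z0 := by
      rw [← sub_eq_zero]
      apply hSh2
      intro q'
      by_cases hq : q' = q
      · subst hq
        rw [map_sub, map_zsmul, hk, sub_self]
      · rw [map_sub, map_zsmul, hzs q' hq, hz0s q' hq, smul_zero, sub_zero]
    have h1 : k • (sEIB S hS).Pπ.H2 z0 = 0 := by rw [← map_zsmul, ← hzk, hzπ]
    rw [hzk]
    exact h5lp_zsmul_eq_zero hp hz0π pπz0 k h1 pz0
  · intro w pw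
    obtain ⟨k, hk⟩ := hDim1 ((sEIB S hS).Pπ.H2 z0) w pπz0 pw hz0π
    refine ⟨k • z0, ?_, ?_, ?_⟩
    · rw [smul_comm, pz0, smul_zero]
    · intro q' hq
      rw [map_zsmul, hz0s q' hq, smul_zero]
    · rw [map_zsmul, hk]

end H5LP

end
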