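/-
W2-C (S55) block C, slice **C2B** (architect helper3): INTERFACE.
`H14PT.C2B S p hS` (local-global compatibility on `p`-torsion of `H²`) from
`TSh2`, `TDim1` (⇐ CMB) and `H5LP.C2Key` (helper5's reduction `H5LP.h5lp_c2b_of`);
`C2Key` = ONE class at a cyclic cyclotomic layer per `q ∈ S` (the slices below).
Plan and paper proofs: NOTES/W2C-C2.md.  Nothing here is proved by a placeholder.
-/
import Fermat.Agent.CFT2.C.BCls.Defs_helper22
import Fermat.Agent.CFT2.C.CycloPsi_helper3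
import Fermat.Agent.CFT2.C2.Reduce_helper5

set_option autoImplicit false
set_option linter.unusedSectionVars false
set_option linter.unusedVariables false
set_option linter.style.haveILetI false

noncomputable section

namespace H3C2

open NumberField H14PT H15D H15F ExtCitation groupCohomology

local notation "Qb" => AlgebraicClosure ℚ
local notation "GQ" => (AlgebraicClosure ℚ ≃ₐ[ℚ] AlgebraicClosure ℚ)

/-- primes are prime. -/
local instance factPrimeOfPrimesC2 (q : Nat.Primes) : Fact (q : ℕ).Prime := ⟨q.2⟩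

variable (S : Finset Nat.Primes)

/-! ### rational ideles in the `E`-model -/

/-- the constant function `g ↦ y` (`y ∈ ℚ_qˣ`) as an element of `I_q` -/
def ratAt (q : Nat.Primes) (y : ℚ_[(q : ℕ)]ˣ) : ideleAt S q :=
  (⟨fun _ => Units.map ((algebraMap ℚ_[(q : ℕ)] (PadicAlgCl (q : ℕ)) : ℚ_[(q : ℕ)] →*
      PadicAlgCl (q : ℕ))) y,
    ⟨fun τ g => by
      apply Units.ext
      show algebraMap ℚ_[(q : ℕ)] (PadicAlgCl (q : ℕ)) (y : ℚ_[(q : ℕ)]) =
        τ (algebraMap ℚ_[(q : ℕ)] (PadicAlgCl (q : ℕ)) (y : ℚ_[(q : ℕ)]))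
      exact (τ.commutes _).symm,
    ⟨⊥, IntermediateField.isUnramifiedOutside_bot S, fun _ _ _ _ => rfl⟩⟩⟩ :
    ↥(idele S (q : ℕ)))

theorem ratAt_fn (q : Nat.Primes) (y : ℚ_[(q : ℕ)]ˣ) (g : GQ) :
    ((ideleAt.fn S (ratAt S q y) g : (PadicAlgCl (q : ℕ))ˣ) : PadicAlgCl (q : ℕ)) =
      algebraMap ℚ_[(q : ℕ)] (PadicAlgCl (q : ℕ)) (y : ℚ_[(q : ℕ)]) := rfl

/-- the rational idele `y ∈ ℚ_Sˣ` as an element of `I` (constant functions) -/
def ratIdele : (H17C.QS S)ˣ →* ideles S where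
  toFun y := fun q => ratAt S q.1 (MulEquiv.piUnits y q)
  map_one' := by
    funext q
    apply ideleAt.ext
    intro g
    apply Units.ext
    rw [ratAt_fn]
    show _ = ((1 : (PadicAlgCl ((q : Nat.Primes) : ℕ))ˣ) : PadicAlgCl ((q : Nat.Primes) : ℕ))
    simp
  map_mul' y y' := by
    funext q
    apply ideleAt.ext
    intro g
    apply Units.ext
    show _ = ((ideleAt.fn S (ratAt S q.1 (MulEquiv.piUnits y q)) g *
      ideleAt.fn S (ratAt S q.1 (MulEquiv.piUnits y' q)) g : (PadicAlgCl ((q : Nat.Primes) : ℕ))ˣ) :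
        PadicAlgCl ((q : Nat.Primes) : ℕ))
    rw [Units.val_mul, ratAt_fn, ratAt_fn, ratAt_fn, map_mul, Pi.mul_apply, Units.val_mul,
      map_mul]

theorem ratIdele_fn (y : (H17C.QS S)ˣ) (q : S) (g : GQ) :
    ((ideleAt.fn S (ratIdele S y q) g : (PadicAlgCl ((q : Nat.Primes) : ℕ))ˣ) :
      PadicAlgCl ((q : Nat.Primes) : ℕ)) =
      algebraMap ℚ_[((q : Nat.Primes) : ℕ)] (PadicAlgCl ((q : Nat.Primes) : ℕ))
        ((y : H17C.QS S) q) := rfl

/-- rational ideles are `GQ`-invariant -/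
theorem ratIdele_smul (γ : GQ) (y : (H17C.QS S)ˣ) : γ • ratIdele S y = ratIdele S y := by
  funext q
  apply ideleAt.ext
  intro g
  rfl

/-- the idele `(c at q, 1 elsewhere)` of `ℚ_S` -/
def suppQ (q : S) (c : ℚ_[((q : Nat.Primes) : ℕ)]ˣ) : (H17C.QS S)ˣ :=
  open Classical in
  MulEquiv.piUnits.symm (Pi.mulSingle q c)

/-! ### the finite levels -/

/-- the finite level `I_L` -/
abbrev IL (L : (levelsS S).Lv) : Rep.{0} ℤ (GQ ⧸ L.U) := finLv (levelsS S) (Rep.of (ρI S)) L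

variable (p : ℕ)

/-! ### the slices -/

/-- a cyclic witness at `q`: a cyclic finite level `G_L = ⟨σ⟩` and a `GQ`-invariant idele `a`
supported at `q` with `p a ∈ N_{G_L} I_L` and `[a] ∉ N_{G_L} B_L` -/
def CycWitness (q : S) : Prop :=
  ∃ (L : (levelsS S).Lv) (σ : GQ ⧸ L.U), (∀ x : GQ ⧸ L.U, x ∈ Subgroup.zpowers σ) ∧
    ∃ a : Additive (ideles S),
      (∀ g : GQ, ρI S g a = a) ∧
      (∀ q' : S, q' ≠ q → prL' S q' a = 0) ∧
      (∃ x : (IL S L).V,
        ((H17C.subNorm (IL S L).ρ ⊤ x : (IL S L).V) : Additive (ideles S)) = p • a) ∧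
      (∀ d : (BL S L).V,
        ((H17C.subNorm (BL S L).ρ ⊤ d : (BL S L).V) : Additive (ideles S) ⧸ imE S)
          ≠ projBL S a)

/-- **(C2-FORM)** the formal part: standard cocycle of the witness (CYC-COC), inflation (T1),
injectivity of inflation on `p`-parts (CMB) -/
def FormStatement (hS : S.Nonempty) : Prop :=
  p.Prime → CMB S p → (∀ q : S, CycWitness S p q) → H5LP.C2Key S p hS

/-- **(C2-LAYER)** the `p^M`-layer of the cyclotomic `ℤ_p`-extension inside `Qb` -/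
def LayerStatement : Prop :=
  p.Prime → p ≠ 2 → (∃ q ∈ S, (q : ℕ) = p) → ∀ M : ℕ,
    ∃ (F : IntermediateField ℚ Qb) (_ : FiniteDimensional ℚ F) (_ : IsGalois ℚ F),
      F.IsUnramifiedOutside S ∧ Module.finrank ℚ F = p ^ M ∧ IsCyclic (F ≃ₐ[ℚ] F) ∧
      Nonempty (F →ₐ[ℚ] CyclotomicField (p ^ (M + 1)) ℚ) ∧
      ∃ ζ : Qb, IsPrimitiveRoot ζ (p ^ (M + 1)) ∧ F ≤ IntermediateField.adjoin ℚ {ζ}

/-- **(C2-DEC)** the local Galois group at `q ≠ p` acts on the `p`-power roots of unity through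
powers of `q` (the extension `ℚ_q(ζ)/ℚ_q` is unramified, generated by Frobenius) -/
def DecStatement : Prop :=
  ∀ (q : Nat.Primes) (n : ℕ) (ζ : Qb), p.Prime → (q : ℕ) ≠ p → IsPrimitiveRoot ζ (p ^ n) →
    ∀ τ : Hq q, ∃ j : ℕ, (primeLocalToGlobal q τ) ζ = ζ ^ ((q : ℕ) ^ j)

/-- **(C2-NORMPSI)** `ψ` kills the rational ideles whose class is a norm from `B_L`, `L` the level
of a layer `F` of the cyclotomic `ℤ_p`-extension (transport to the tensor model by the B-CLS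
sub-slices + `H3C.h3c_psi_norm`) -/
def NormPsiStatement (q₀ : S) : Prop :=
  ((q₀ : Nat.Primes) : ℕ) ≠ 2 →
  ∀ (M : ℕ) (F : IntermediateField ℚ Qb) [FiniteDimensional ℚ F] [IsGalois ℚ F],
    F.IsUnramifiedOutside S → Module.finrank ℚ F = ((q₀ : Nat.Primes) : ℕ) ^ M →
    Nonempty (F →ₐ[ℚ] CyclotomicField (((q₀ : Nat.Primes) : ℕ) ^ (M + 1)) ℚ) →
    ∀ L : (levelsS S).Lv, L.U = F.fixingSubgroup →
    ∀ (y : (H17C.QS S)ˣ) (d : (BL S L).V),
      ((H17C.subNorm (BL S L).ρ ⊤ d : (BL S L).V) : Additive (ideles S) ⧸ imE S)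
        = projBL S (Additive.ofMul (ratIdele S y)) →
      (2 * (((q₀ : Nat.Primes) : ℕ) - 1)) •
        H3C.h3c_psi S q₀ M (Additive.ofMul (H17C.locUnit S ℚ y), 0) = 0

/-- **(C2-KEY)** the witnesses: `q = p`: `M = 1`, `a = 1 + p`;  `q ≠ p`: `M` minimal with
`q^{p-1} ≢ 1 mod p^{M+1}`, `a = q` -/
def KeyStatement (q₀ : S) : Prop :=
  ((q₀ : Nat.Primes) : ℕ) ≠ 2 → LayerStatement S ((q₀ : Nat.Primes) : ℕ) →
    DecStatement ((q₀ : Nat.Primes) : ℕ) → NormPsiStatement S q₀ →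
    ∀ q : S, CycWitness S ((q₀ : Nat.Primes) : ℕ) q

end H3C2

end
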