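/-
W2-C (S55) block C2 (C2B), slice DEC (helper24): `H24DEC.h24dec_dec p : H3C2.DecStatement p`.
The local Galois group at `q ≠ p` acts on the `p`-power roots of unity through powers of `q`:
`ℚ_q(ξ)/ℚ_q` is unramified (block B `UnrRoots`), its Galois group is generated by a Frobenius
(`UnrFrob`), and roots of unity of order prime to `q` are distinct modulo the maximal ideal.
-/
import Mathlib
import Fermat.Agent.CFT2.C2.Defs_helper3
import Fermat.Agent.CFT2.B.UnrFinal_helper24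
import Fermat.Agent.CFT2.B.UnrFrob_helper22

set_option autoImplicit false
set_option linter.style.haveILetI false
set_option linter.unusedSectionVars false
set_option linter.unusedVariables false

noncomputable section

namespace H24DEC

open scoped WithZero Pointwise
open H3LB H24LB IntermediateField

local notation "Qb" => AlgebraicClosure ℚ
local notation "GQ" => (AlgebraicClosure ℚ ≃ₐ[ℚ] AlgebraicClosure ℚ)

section core

variable (q : ℕ) [Fact q.Prime]

/-- the cardinality of the residue field of a `q`-adic field is a power of `q` -/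
theorem h24dec_card_pow (K : Type) [Field K] [Algebra ℚ_[q] K] [FiniteDimensional ℚ_[q] K] :
    ∃ a : ℕ, Nat.card (IsLocalRing.ResidueField (padicVal q K).valuationSubring) = q ^ a := by
  have hv : IsLocalVal (padicVal q K) := h3lb_isLocalVal q K
  haveI : Finite (h24lb_k (padicVal q K)) := h24lb_finite_k _ hv
  haveI : Fintype (h24lb_k (padicVal q K)) := Fintype.ofFinite _
  have hq0 : ((q : ℕ) : h24lb_k (padicVal q K)) = 0 := by
    have h1 : padicVal q K ((q : ℕ) : K) < 1 := h24lb_padicVal_q_lt_one q K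
    have h2 : h24lb_resL (padicVal q K) ((q : ℕ) : K) = 0 :=
      (h24lb_resL_eq_zero_iff _ h1.le).2 h1
    have h3 : ∀ n : ℕ, h24lb_resL (padicVal q K) ((n : ℕ) : K) = ((n : ℕ) : h24lb_k (padicVal q K)) := by
      intro n
      induction n with
      | zero => rw [Nat.cast_zero, Nat.cast_zero, h24lb_resL_zero]
      | succ n ih =>
        rw [Nat.cast_succ, Nat.cast_succ,
          h24lb_resL_add _ (h24lb_natCast_le_one _ n) (by rw [map_one]), ih, h24lb_resL_one]
    rw [← h3, h2]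
  have hdvd : ringChar (h24lb_k (padicVal q K)) ∣ q := (ringChar.spec _ q).1 hq0
  have hne1 : ringChar (h24lb_k (padicVal q K)) ≠ 1 := CharP.ringChar_ne_one
  have heq : ringChar (h24lb_k (padicVal q K)) = q := by
    rcases (Nat.dvd_prime (Fact.out : q.Prime)).1 hdvd with h | h
    · exact absurd h hne1
    · exact h
  haveI : CharP (h24lb_k (padicVal q K)) q :=
    CharP.congr (ringChar (h24lb_k (padicVal q K))) heq
  obtain ⟨n, -, hn⟩ := FiniteField.card (h24lb_k (padicVal q K)) q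
  exact ⟨n, by rw [Nat.card_eq_fintype_card, hn]⟩

/-- **DEC, local core** -/
theorem h24dec_core {m : ℕ} (hm : 0 < m) (hqm : ¬ q ∣ m) {ξ : PadicAlgCl q}
    (hξ : IsPrimitiveRoot ξ m) (τ : PadicAlgCl q ≃ₐ[ℚ_[q]] PadicAlgCl q) :
    ∃ j : ℕ, τ ξ = ξ ^ (q ^ j) := by
  haveI : NeZero m := ⟨hm.ne'⟩
  have halg : IsAlgebraic ℚ_[q] ξ := ((hξ.isIntegral hm).tower_top (A := ℚ_[q])).isAlgebraic
  haveI hcyc : IsCyclotomicExtension {m} ℚ_[q] (IntermediateField.adjoin ℚ_[q] {ξ}) := by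
    change IsCyclotomicExtension {m} ℚ_[q] (IntermediateField.adjoin ℚ_[q] {ξ}).toSubalgebra
    rw [IntermediateField.adjoin_simple_toSubalgebra_of_isAlgebraic halg]
    exact hξ.adjoin_isCyclotomicExtension ℚ_[q]
  haveI hfd : FiniteDimensional ℚ_[q] (IntermediateField.adjoin ℚ_[q] {ξ}) :=
    IsCyclotomicExtension.finiteDimensional {m} ℚ_[q] _
  let ξL : IntermediateField.adjoin ℚ_[q] {ξ} :=
    ⟨ξ, IntermediateField.mem_adjoin_simple_self ℚ_[q] ξ⟩
  have hξL : IsPrimitiveRoot ξL m :=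
    IsPrimitiveRoot.of_map_of_injective
      (f := algebraMap (IntermediateField.adjoin ℚ_[q] {ξ}) (PadicAlgCl q)) hξ
      (algebraMap (IntermediateField.adjoin ℚ_[q] {ξ}) (PadicAlgCl q)).injective
  have htop : Algebra.adjoin ℚ_[q] {ξL} = ⊤ :=
    IsCyclotomicExtension.adjoin_primitive_root_eq_top hξL
  obtain ⟨hgal, hext⟩ := h24lb_unrRoots_final q ℚ_[q] (IntermediateField.adjoin ℚ_[q] {ξ}) m ξL
    hqm hξL.pow_eq_one htop
  haveI := hgal
  obtain ⟨φ, hφ, hgen⟩ := H22UF.h22uf_unrFrob ℚ_[q] (IntermediateField.adjoin ℚ_[q] {ξ})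
    (padicVal q ℚ_[q]) (padicVal q (IntermediateField.adjoin ℚ_[q] {ξ})) hext
  obtain ⟨a, ha⟩ := h24dec_card_pow q ℚ_[q]
  -- the Frobenius on `ξ`
  have hwm : padicVal q (IntermediateField.adjoin ℚ_[q] {ξ}) ((m : ℕ) : _) = 1 :=
    h24lb_padicVal_natCast_eq_one q _ hqm
  have hwξ : padicVal q (IntermediateField.adjoin ℚ_[q] {ξ}) ξL = 1 :=
    h24lb_w_eq_one_of_pow _ hm hξL.pow_eq_one
  have hφξ : φ ξL = ξL ^ (q ^ a) := by
    by_contra hne
    have h1 := hφ ξL hwξ.le
    rw [ha] at h1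
    have h3 := h24lb_root_sub_root (padicVal q (IntermediateField.adjoin ℚ_[q] {ξ})) hm hwm hξL
      (x := φ ξL) (y := ξL ^ (q ^ a))
      (by rw [← map_pow, hξL.pow_eq_one, map_one])
      (by rw [← pow_mul, mul_comm, pow_mul, hξL.pow_eq_one, one_pow]) hne
    rw [h3] at h1
    exact lt_irrefl _ h1
  have hpow : ∀ k : ℕ, (φ ^ k) ξL = ξL ^ (q ^ (a * k)) := by
    intro k
    induction k with
    | zero => simp
    | succ k ih =>
      rw [pow_succ', AlgEquiv.mul_apply, ih, map_pow, hφξ, ← pow_mul, ← pow_add, Nat.mul_succ,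
        add_comm]
  -- the restriction of `τ`
  have hg := hgen (τ.restrictNormal (IntermediateField.adjoin ℚ_[q] {ξ}))
  rw [← (isOfFinOrder_of_finite φ).mem_powers_iff_mem_zpowers] at hg
  obtain ⟨k, hk⟩ := hg
  refine ⟨a * k, ?_⟩
  have h1 := AlgEquiv.restrictNormal_commutes τ (IntermediateField.adjoin ℚ_[q] {ξ}) ξL
  have h2 : algebraMap (IntermediateField.adjoin ℚ_[q] {ξ}) (PadicAlgCl q) ξL = ξ := rfl
  rw [h2] at h1
  rw [← h1, ← hk]
  show algebraMap (IntermediateField.adjoin ℚ_[q] {ξ}) (PadicAlgCl q) ((φ ^ k) ξL) = _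
  rw [hpow k, map_pow, h2]

end core

/-- **(C2-DEC)** -/
theorem h24dec_dec (p : ℕ) : H3C2.DecStatement p := by
  intro q n ζ hp hqp hζ τ
  letI : Fact (q : ℕ).Prime := ⟨q.2⟩
  have hm : 0 < p ^ n := pow_pos hp.pos n
  have hqm : ¬ (q : ℕ) ∣ p ^ n := by
    intro h
    have h1 := (q.2).dvd_of_dvd_pow h
    exact hqp ((Nat.prime_dvd_prime_iff_eq q.2 hp).mp h1)
  have hξ : IsPrimitiveRoot (padicEmbedding (q : ℕ) ζ) (p ^ n) :=
    hζ.map_of_injective (padicEmbedding (q : ℕ)).toRingHom.injective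
  let τ' : PadicAlgCl (q : ℕ) ≃ₐ[ℚ_[(q : ℕ)]] PadicAlgCl (q : ℕ) := τ
  obtain ⟨j, hj⟩ := h24dec_core (q : ℕ) hm hqm hξ τ'
  refine ⟨j, ?_⟩
  apply (padicEmbedding (q : ℕ)).toRingHom.injective
  have h1 : padicEmbedding (q : ℕ) (localGaloisToGlobal (q : ℕ) τ' ζ)
      = τ' (padicEmbedding (q : ℕ) ζ) := padicEmbedding_localGaloisToGlobal (q : ℕ) τ' ζ
  have h2 : padicEmbedding (q : ℕ) (ζ ^ ((q : ℕ) ^ j))
      = padicEmbedding (q : ℕ) ζ ^ ((q : ℕ) ^ j) := map_pow _ _ _
  exact h1.trans (hj.trans h2.symm)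

end H24DEC

end
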