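/-
W2-C (S55) block C, slice C2B / **LAYER** (helper21): `H3C2.LayerStatement S p`:
the `p^M`-layer of the cyclotomic `ℤ_p`-extension inside `Qb`, as the image of
`H21TW.layer p M ⊂ ℚ(ζ_{p^{M+1}})` under an embedding `ℚ(ζ_{p^{M+1}}) → Qb`.
Nothing here is proved by a placeholder.
-/
import Mathlib
import Fermat.Agent.CFT2.C2.Defs_helper3
import Fermat.Agent.CFT2.C.TowerLayer_helper21
import Fermat.Agent.CFT2.E.LocDeg_helper24

set_option autoImplicit false
set_option linter.unusedSectionVars false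
set_option linter.unusedVariables false
set_option linter.style.haveILetI false

noncomputable section

namespace H21LY

open NumberField IntermediateField

local notation "Qb" => AlgebraicClosure ℚ

/-- the layer statement, for `p = q ∈ S` -/
theorem layer_core (S : Finset Nat.Primes) (q : Nat.Primes) (hqS : q ∈ S)
    (hp2 : (q : ℕ) ≠ 2) (M : ℕ) :
    ∃ (F : IntermediateField ℚ Qb) (_ : FiniteDimensional ℚ F) (_ : IsGalois ℚ F),
      F.IsUnramifiedOutside S ∧ Module.finrank ℚ F = (q : ℕ) ^ M ∧ IsCyclic (F ≃ₐ[ℚ] F) ∧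
      Nonempty (F →ₐ[ℚ] CyclotomicField ((q : ℕ) ^ (M + 1)) ℚ) ∧
      ∃ ζ : Qb, IsPrimitiveRoot ζ ((q : ℕ) ^ (M + 1)) ∧ F ≤ IntermediateField.adjoin ℚ {ζ} := by
  haveI : Fact (q : ℕ).Prime := ⟨q.2⟩
  haveI hcyc : IsCyclotomicExtension {(q : ℕ) ^ (M + 1)} ℚ (H21TW.KK (q : ℕ) M) :=
    H21TW.isCyc_KK (q : ℕ) M
  haveI : NeZero ((q : ℕ) ^ (M + 1)) := H21TW.neZero_ppow (q : ℕ) M
  haveI : FiniteDimensional ℚ (H21TW.KK (q : ℕ) M) :=
    IsCyclotomicExtension.finiteDimensional {(q : ℕ) ^ (M + 1)} ℚ (H21TW.KK (q : ℕ) M)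
  haveI : Algebra.IsAlgebraic ℚ (H21TW.KK (q : ℕ) M) := Algebra.IsAlgebraic.of_finite ℚ _
  let ι : H21TW.KK (q : ℕ) M →ₐ[ℚ] Qb := IsAlgClosed.lift
  let F₀ : IntermediateField ℚ (H21TW.KK (q : ℕ) M) := H21TW.layer (q : ℕ) M
  let F : IntermediateField ℚ Qb := F₀.map ι
  let e : F₀ ≃ₐ[ℚ] F := IntermediateField.equivMap F₀ ι
  haveI hG₀ : IsGalois ℚ F₀ := H21TW.layer_isGalois (q : ℕ) M
  haveI hfd₀ : FiniteDimensional ℚ F₀ := inferInstance
  have hfd : FiniteDimensional ℚ F := e.toLinearEquiv.finiteDimensional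
  have hG : IsGalois ℚ F := IsGalois.of_algEquiv e
  -- the primitive root
  have hζ' : IsPrimitiveRoot (IsCyclotomicExtension.zeta ((q : ℕ) ^ (M + 1)) ℚ
      (H21TW.KK (q : ℕ) M)) ((q : ℕ) ^ (M + 1)) :=
    IsCyclotomicExtension.zeta_spec _ _ _
  have hζ : IsPrimitiveRoot (ι (IsCyclotomicExtension.zeta ((q : ℕ) ^ (M + 1)) ℚ
      (H21TW.KK (q : ℕ) M))) ((q : ℕ) ^ (M + 1)) :=
    hζ'.map_of_injective ι.injective
  have hle : F ≤ IntermediateField.adjoin ℚ {ι (IsCyclotomicExtension.zeta ((q : ℕ) ^ (M + 1)) ℚ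
      (H21TW.KK (q : ℕ) M))} := by
    have htop : IntermediateField.adjoin ℚ {IsCyclotomicExtension.zeta ((q : ℕ) ^ (M + 1)) ℚ
        (H21TW.KK (q : ℕ) M)} = ⊤ := by
      rw [eq_top_iff]
      intro y _
      have hy : y ∈ Algebra.adjoin ℚ ({IsCyclotomicExtension.zeta ((q : ℕ) ^ (M + 1)) ℚ
          (H21TW.KK (q : ℕ) M)} : Set (H21TW.KK (q : ℕ) M)) := by
        rw [IsCyclotomicExtension.adjoin_primitive_root_eq_top hζ']
        trivial
      exact IntermediateField.algebra_adjoin_le_adjoin ℚ _ hy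
    have h1 : (IntermediateField.adjoin ℚ {IsCyclotomicExtension.zeta ((q : ℕ) ^ (M + 1)) ℚ
        (H21TW.KK (q : ℕ) M)}).map ι = IntermediateField.adjoin ℚ
          {ι (IsCyclotomicExtension.zeta ((q : ℕ) ^ (M + 1)) ℚ (H21TW.KK (q : ℕ) M))} := by
      rw [IntermediateField.adjoin_map, Set.image_singleton]
    rw [← h1, htop]
    exact IntermediateField.map_mono ι le_top
  refine ⟨F, hfd, hG, ?_, ?_, ?_, ⟨F₀.val.comp e.symm.toAlgHom⟩, _, hζ, hle⟩
  · exact (H24LD.h24ld_cyc_unram S q hqS (M + 1) hζ.pow_eq_one).of_le hle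
  · rw [← e.toLinearEquiv.finrank_eq, ← IsGalois.card_aut_eq_finrank]
    exact H21TW.layer_card (q : ℕ) M hp2
  · haveI := H21TW.layer_cyclic (q : ℕ) M hp2
    exact isCyclic_of_surjective (AlgEquiv.autCongr e) (AlgEquiv.autCongr e).surjective

/-- **(C2-LAYER)** -/
theorem layerStatement (S : Finset Nat.Primes) (p : ℕ) : H3C2.LayerStatement S p := by
  intro hp hp2 hpS M
  obtain ⟨q, hqS, rfl⟩ := hpS
  exact layer_core S q hqS hp2 M

end H21LY

end
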