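/-
W2-C (S55) block C, slice C2B, sub-slice **NORMPSI** (helper3):
`ψ` kills the rational ideles whose class in `B` is a norm from `B_L`, `L` the level of a layer
`F` of the cyclotomic `ℤ_p`-extension.  Transport by helper22's `jHom` + `H3C.h3c_psi_norm`.
-/
import Fermat.Agent.CFT2.C2.Defs_helper3
import Fermat.Agent.CFT2.C.BCls.Asm_helper22
import Fermat.Agent.CFT2.C.BCls.TensorInj_helper26
import Fermat.Agent.CFT2.C.BCls.TensorSurj_helper26
import Fermat.Agent.CFT2.C.BCls.SUnits_helper25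
import Fermat.Agent.CFT2.C.BCls.LevelField_helper9
import Fermat.Agent.CFT2.C.Cyclo_helper3

set_option autoImplicit false
set_option linter.unusedSectionVars false
set_option linter.unusedVariables false
set_option linter.style.haveILetI false

noncomputable section

namespace H3C2

open NumberField H14PT H15D H15F ExtCitation groupCohomology H22BC

local notation "Qb" => AlgebraicClosure ℚ
local notation "GQ" => (AlgebraicClosure ℚ ≃ₐ[ℚ] AlgebraicClosure ℚ)

/-- primes are prime. -/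
local instance factPrimeOfPrimesNP (q : Nat.Primes) : Fact (q : ℕ).Prime := ⟨q.2⟩

variable {S : Finset Nat.Primes}

/-- `t (1 ⊗ y)` is the rational idele `y` -/
theorem h3c2_tI_locUnit (Λ : Lev S) (y : (H17C.QS S)ˣ) :
    tI Λ (H17C.locUnit S Λ.F y) = ratIdele S y := by
  apply ideles_ext
  intro q g
  rw [tI_fn, ratIdele_fn]
  show tF S Λ.F (H17C.locRing S Λ.F (y : H17C.QS S)) q g = _
  rw [H17C.locRing_apply, tF_tmul]
  simp

/-- the base change of a rational idele -/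
theorem h3c2_ambBase_locUnit (F : Type) [Field F] [NumberField F] (y : (H17C.QS S)ˣ) :
    H17C.ambBase S ℚ F (Additive.ofMul (H17C.locUnit S ℚ y), 0) =
      (Additive.ofMul (H17C.locUnit S F y), 0) := by
  rw [H17C.ambBase_apply]
  refine Prod.ext ?_ (map_zero _)
  show Additive.ofMul (H17C.ideleBase S ℚ F (H17C.locUnit S ℚ y)) = _
  congr 1
  apply Units.ext
  show H17C.ksBase S ℚ F (H17C.locRing S ℚ (y : H17C.QS S)) = H17C.locRing S F (y : H17C.QS S)
  rw [H17C.locRing_apply, H17C.ksBase_tmul, map_one, H17C.locRing_apply]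

section norm

variable (L : (levelsS S).Lv) (Λ : Lev S) (hU : L.U = Λ.F.fixingSubgroup)

include hU in
/-- the restriction `GQ ⧸ L.U → Aut F` -/
theorem h3c2_resQ_exists :
    ∃ e : (GQ ⧸ L.U) ≃ H17C.AutQ Λ.F, ∀ g : GQ, e (g : GQ ⧸ L.U) = resL Λ g := by
  have hker : ∀ x ∈ L.U, resL Λ x = 1 := by
    intro x hx
    rw [resL_eq_one_iff, ← hU]
    exact hx
  refine ⟨Equiv.ofBijective (QuotientGroup.lift L.U (resL Λ) hker) ⟨?_, ?_⟩, fun g => rfl⟩
  · rw [injective_iff_map_eq_one]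
    intro x hx
    obtain ⟨g, rfl⟩ := QuotientGroup.mk_surjective x
    have h1 : resL Λ g = 1 := hx
    rw [resL_eq_one_iff, ← hU] at h1
    exact (QuotientGroup.eq_one_iff g).2 h1
  · intro σ
    obtain ⟨g, rfl⟩ := resL_surjective Λ σ
    exact ⟨(g : GQ ⧸ L.U), rfl⟩

include hU in
/-- an additive map `j` with `j (γ b) = (res γ) (j b)` maps norms to norms -/
theorem h3c2_norm_transport (j : (BL S L).V →+ H17C.ClS S Λ.F)
    (hj : ∀ (g : GQ) (b : (BL S L).V),
      j ((BL S L).ρ (g : GQ ⧸ L.U) b) = H17C.clsRep S ℚ Λ.F (resL Λ g) (j b))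
    (d : (BL S L).V) :
    j (H17C.subNorm (BL S L).ρ ⊤ d) = ∑ σ : H17C.AutQ Λ.F, H17C.clsRep S ℚ Λ.F σ (j d) := by
  classical
  obtain ⟨e, he⟩ := h3c2_resQ_exists L Λ hU
  letI : Fintype (GQ ⧸ L.U) := Fintype.ofFinite _
  have h1 : H17C.subNorm (BL S L).ρ ⊤ d = ∑ γ : GQ ⧸ L.U, (BL S L).ρ γ d := by
    unfold H17C.subNorm
    letI : Fintype (⊤ : Subgroup (GQ ⧸ L.U)) := Fintype.ofFinite _
    exact Fintype.sum_equiv (Subgroup.topEquiv (G := GQ ⧸ L.U)).toEquiv _ _ (fun h => rfl)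
  rw [h1, map_sum]
  refine Fintype.sum_equiv e _ _ (fun γ => ?_)
  obtain ⟨g, rfl⟩ := QuotientGroup.mk_surjective γ
  rw [hj, he]

end norm

/-- **(C2-NORMPSI)** -/
theorem h3c2_normPsi (S : Finset Nat.Primes) (q₀ : S) : NormPsiStatement S q₀ := by
  intro hp2 M F hfd hgal hunr hF hι L hU y d hd
  obtain ⟨ι⟩ := hι
  have hS : S.Nonempty := ⟨q₀.1, q₀.2⟩
  let Λ : Lev S := ⟨F, hfd, hgal, hunr⟩
  have hU' : L.U = Λ.F.fixingSubgroup := hU
  have hinj := H26T.h26c_tensorInj S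
  have hsurj := H26T.h26c_tensorSurj S
  have hsu := H25BC.h25bc_sUnits S
  have hlf := H9BL.levelFieldStmt S
  set j := jHom hS hinj hsurj hsu hlf L Λ hU' with hjdef
  -- the class of the rational idele
  have h1 : j (H17C.subNorm (BL S L).ρ ⊤ d) =
      H17C.clsMk S Λ.F (Additive.ofMul (H17C.locUnit S Λ.F y), 0) := by
    apply jHom_eq
    refine ⟨Λ, le_rfl, H17C.locUnit S Λ.F y, ?_, by rw [baseAmb_refl]⟩
    rw [h3c2_tI_locUnit]
    exact hd.symm
  -- the norm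
  have h2 := h3c2_norm_transport L Λ hU' j
    (fun g b => jHom_eqv hS hinj hsurj hsu hlf L Λ hU' g b) d
  obtain ⟨w, hw⟩ := H17C.clsMk_surjective S Λ.F (j d)
  have h3 : ∑ σ : H17C.AutQ Λ.F, H17C.clsRep S ℚ Λ.F σ (j d) =
      H17C.clsMk S Λ.F (H17C.ambN S Λ.F ⊤ w) := by
    rw [H3C.h3c_ambN_apply, map_sum]
    refine Finset.sum_congr rfl (fun σ _ => ?_)
    rw [← hw, H17C.clsRep_mk]
  have h4 : H17C.clsMk S Λ.F (Additive.ofMul (H17C.locUnit S Λ.F y), 0) =
      H17C.clsMk S Λ.F (H17C.ambN S Λ.F ⊤ w) := by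
    rw [← h1, h2, h3]
  have h5 : H17C.ambBase S ℚ Λ.F (Additive.ofMul (H17C.locUnit S ℚ y), 0) -
      H17C.ambN S Λ.F ⊤ w ∈ H17C.princS S Λ.F := by
    rw [h3c2_ambBase_locUnit, ← H17C.clsMk_eq_zero_iff, map_sub, h4, sub_self]
  exact H3C.h3c_psi_norm S q₀ M Λ.F hF ι _ w h5

end H3C2

end
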