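/-
W2-C (S55) block C, slice **C2B** (helper3): the final assembly
`H14PT.C2B S p hS` from FORM (helper5) and KEY (helper16); all other inputs are discharged:
CMB (helper25), TSh2 (helper12), TDim1 (helper14), LAYER (helper21), DEC (helper24), NORMPSI.
-/
import Fermat.Agent.CFT2.C2.NormPsi_helper3
import Fermat.Agent.CFT2.C2.Dec_helper24
import Fermat.Agent.CFT2.C2.Layer_helper21
import Fermat.Agent.CFT2.C.CMBFinal_helper25
import Fermat.Agent.CFT2.E.W_sh2_helper12
import Fermat.Agent.CFT2.E.W_dim1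

set_option autoImplicit false
set_option linter.unusedSectionVars false
set_option linter.unusedVariables false
set_option linter.style.haveILetI false

noncomputable section

namespace H3C2

open NumberField H14PT H15D H15F ExtCitation groupCohomology

/-- **(C2B)** from FORM and KEY -/
theorem h3c2_c2b_of (S : Finset Nat.Primes) (q₀ : S) (hp2 : ((q₀ : Nat.Primes) : ℕ) ≠ 2)
    (hS : S.Nonempty)
    (hform : FormStatement S ((q₀ : Nat.Primes) : ℕ) hS) (hkey : KeyStatement S q₀) :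
    C2B S ((q₀ : Nat.Primes) : ℕ) hS := by
  have hp : Nat.Prime ((q₀ : Nat.Primes) : ℕ) := (q₀ : Nat.Primes).2
  haveI : Fact (Nat.Prime ((q₀ : Nat.Primes) : ℕ)) := ⟨hp⟩
  have hpS : ∃ q ∈ S, ((q : Nat.Primes) : ℕ) = ((q₀ : Nat.Primes) : ℕ) := ⟨q₀.1, q₀.2, rfl⟩
  have hcmb : CMB S ((q₀ : Nat.Primes) : ℕ) := H25C.h25c_cmb S _ hp hp2 hpS
  have hwit := hkey hp2 (H21LY.layerStatement S _) (H24DEC.h24dec_dec _) (h3c2_normPsi S q₀)
  exact H5LP.h5lp_c2b_of hS (tDim1_of_cmb S hcmb) (H12SH2.tSh2 S) (hform hp hcmb hwit)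

end H3C2

end
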