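/-
W2-C (S55), (C2): the finite-level form of (C2-KEY), second version (helper5): the level of the
witness is ARBITRARY (not necessarily below the level `L₀` of (CM)).

  `CMB S p → C2KeyFin' S p hS → C2Key S p hS`.
-/
import Mathlib
import Fermat.Agent.CFT2.C2.KeyFin_helper5

set_option autoImplicit false
set_option linter.style.haveILetI false
set_option linter.unusedSectionVars false
set_option linter.unusedVariables false

noncomputable section

namespace H5LP

open H15D H15F H14PT groupCohomology ExtCitation CategoryTheory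

local notation "GQ" => (AlgebraicClosure ℚ ≃ₐ[ℚ] AlgebraicClosure ℚ)

/-- primes are prime. -/
local instance factPrimeOfPrimesKF2 (q : Nat.Primes) : Fact (q : ℕ).Prime := ⟨q.2⟩

variable (S : Finset Nat.Primes) (p : ℕ)

/-- **(C2-KEY), finite-level form at an arbitrary level** -/
def C2KeyFin' (hS : S.Nonempty) : Prop := ∀ q : S,
  ∃ (L : (levelsS S).Lv) (y : H2 (finLv (levelsS S) (Rep.of (ρI S)) L))
    (f : finLv (levelsS S) (Rep.of (ρI S)) L ⟶ finLv (levelsS S) (Rep.of (ρB S)) L),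
    p • y = 0 ∧
    (∀ q' : S, q' ≠ q → (prIq S q').H2 (infl₂ (levelsS S) (Rep.of (ρI S)) L y) = 0) ∧
    (∀ a : finLv (levelsS S) (Rep.of (ρI S)) L,
      ((f.hom a : finLv (levelsS S) (Rep.of (ρB S)) L) : Additive (ideles S) ⧸ imE S)
        = (sEIB S hS).π (a : Additive (ideles S))) ∧
    ((groupCohomology.functor ℤ (GQ ⧸ L.U) 2).map f).hom y ≠ 0

variable {S p}

/-- **(C2-KEY) from its finite-level form** and (CM) -/
theorem h5lp_c2Key_of_fin' [Fact p.Prime] (hS : S.Nonempty) (hCMB : CMB S p)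
    (h : C2KeyFin' S p hS) : C2Key S p hS := by
  intro q
  obtain ⟨L₀, hL₀⟩ := hCMB
  obtain ⟨L, y, f, py, hsupp, hf, hne⟩ := h q
  refine ⟨infl₂ (levelsS S) (Rep.of (ρI S)) L y, by rw [← map_nsmul, py, map_zero], hsupp, ?_⟩
  have h2 : (sEIB S hS).Pπ.H2 (infl₂ (levelsS S) (Rep.of (ρI S)) L y)
      = infl₂ (levelsS S) (Rep.of (ρB S)) L
          (((groupCohomology.functor ℤ (GQ ⧸ L.U) 2).map f).hom y) :=
    infl₂_ofLinear (levelsS S) (sEIB S hS).π (sEIB S hS).π_comm L f hf y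
  rw [h2]
  intro h0
  apply hne
  obtain ⟨L1, hL1, h1⟩ := exists_trans₂_eq_zero (levelsS S) (Rep.of (ρB S)) L _ h0
  obtain ⟨L', hL'1, hL'0⟩ := (levelsS S).exists_lv_le L1 L₀
  have hL'L : L'.U ≤ L.U := hL'1.trans hL1
  obtain ⟨γ', hγ'⟩ := hL₀ L' hL'0
  have hv : PVanishH1 (levelsS S) (Rep.of (ρB S)) p L' := H15W.pVanish_of_pClass S L' γ' hγ'
  have e1 : p • ((groupCohomology.functor ℤ (GQ ⧸ L.U) 2).map f).hom y
      = ((groupCohomology.functor ℤ (GQ ⧸ L.U) 2).map f).hom (p • y) :=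
    (map_nsmul ((groupCohomology.functor ℤ (GQ ⧸ L.U) 2).map f).hom p y).symm
  have e2 : ((groupCohomology.functor ℤ (GQ ⧸ L.U) 2).map f).hom (p • y) = 0 :=
    (congrArg ((groupCohomology.functor ℤ (GQ ⧸ L.U) 2).map f).hom py).trans
      (map_zero ((groupCohomology.functor ℤ (GQ ⧸ L.U) 2).map f).hom)
  refine trans₂_inj_pPart p L L' hL'L hv _ ⟨1, ?_⟩ (h1 L' hL'L hL'1)
  rw [pow_one]
  exact e1.trans e2

/-- **(C2) from the finite-level key at arbitrary levels**, (CM) and (SH2) -/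
theorem h5lp_c2b_of_fin' [Fact p.Prime] (hS : S.Nonempty) (hCMB : CMB S p) (hSh2 : TSh2 S)
    (h : C2KeyFin' S p hS) : C2B S p hS :=
  h5lp_c2b_of hS (tDim1_of_cmb S hCMB) hSh2 (h5lp_c2Key_of_fin' hS hCMB h)

end H5LP

end
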