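/-
W2-C (S55), (C2), slice **C2-FORM** (helper5): the formal part of (C2-KEY).

  `h5lp_form : H3C2.FormStatement S p hS`, i.e.
  `p.Prime → CMB S p → (∀ q : S, CycWitness S p q) → C2Key S p hS`.

The class is the standard 2-cocycle (CYC-COC, helper24) of the invariant idele `a` at the cyclic
level `L` of the witness; it is killed by `p` because `p a` is a norm from `I_L`, it is supported
at `q` because `a` is, and its image in `H²(G_L, B_L)` is nonzero because `[a]` is not a norm from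
`B_L`.  The passage to the limit is `h5lp_c2Key_of_fin'`.
-/
import Mathlib
import Fermat.Agent.CFT2.C2.Defs_helper3
import Fermat.Agent.CFT2.C2.KeyFin2_helper5
import Fermat.Agent.CFT2.C.CycCoc_helper24

set_option autoImplicit false
set_option linter.style.haveILetI false
set_option linter.unusedSectionVars false
set_option linter.unusedVariables false

noncomputable section

namespace H5LP

open H15D H15F H14PT groupCohomology ExtCitation CategoryTheory

local notation "GQ" => (AlgebraicClosure ℚ ≃ₐ[ℚ] AlgebraicClosure ℚ)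

/-- primes are prime. -/
local instance factPrimeOfPrimesFm (q : Nat.Primes) : Fact (q : ℕ).Prime := ⟨q.2⟩

variable (S : Finset Nat.Primes) (p : ℕ)

/-- the finite-level map `I_L → B_L` (additive) -/
def h5lp_fIBadd (L : (levelsS S).Lv) :
    (finLv (levelsS S) (Rep.of (ρI S)) L) →+ (finLv (levelsS S) (Rep.of (ρB S)) L) :=
  AddMonoidHom.mk' (fun x => (⟨projBL S x.1, fun u => by
      show ρB S u.1 (projBL S x.1) = projBL S x.1
      exact congrArg (projBL S) (x.2 u)⟩ : finLv (levelsS S) (Rep.of (ρB S)) L))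
    (fun x y => by
      apply Subtype.ext
      exact map_add (projBL S) x.1 y.1)

theorem h5lp_fIBadd_coe (L : (levelsS S).Lv) (x : finLv (levelsS S) (Rep.of (ρI S)) L) :
    ((h5lp_fIBadd S L x : finLv (levelsS S) (Rep.of (ρB S)) L) : Additive (ideles S) ⧸ imE S)
      = projBL S (x : Additive (ideles S)) := rfl

theorem h5lp_fIBadd_comm (L : (levelsS S).Lv) (g : GQ ⧸ L.U)
    (x : finLv (levelsS S) (Rep.of (ρI S)) L) :
    h5lp_fIBadd S L ((finLv (levelsS S) (Rep.of (ρI S)) L).ρ g x)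
      = (finLv (levelsS S) (Rep.of (ρB S)) L).ρ g (h5lp_fIBadd S L x) := by
  obtain ⟨g, rfl⟩ := QuotientGroup.mk_surjective g
  apply Subtype.ext
  rfl

/-- the finite-level map `I_L → B_L` -/
def h5lp_fIB (L : (levelsS S).Lv) :
    finLv (levelsS S) (Rep.of (ρI S)) L ⟶ finLv (levelsS S) (Rep.of (ρB S)) L :=
  H20A.repHom _ _ (h5lp_fIBadd S L) (h5lp_fIBadd_comm S L)

theorem h5lp_fIB_coe (L : (levelsS S).Lv) (x : finLv (levelsS S) (Rep.of (ρI S)) L) :
    (((h5lp_fIB S L).hom x : finLv (levelsS S) (Rep.of (ρB S)) L) :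
      Additive (ideles S) ⧸ imE S) = projBL S (x : Additive (ideles S)) := rfl

/-- `n • stdCocFun σ c = stdCocFun σ (n • c)` -/
theorem h5lp_nsmul_stdCocFun {G : Type} [Group G] [Finite G] (σ : G) {V : Type} [AddCommGroup V]
    (n : ℕ) (c : V) : n • H17C.stdCocFun σ c = H17C.stdCocFun σ (n • c) := by
  funext gh
  show n • (H17C.stdCocFun σ c gh) = H17C.stdCocFun σ (n • c) gh
  unfold H17C.stdCocFun
  split_ifs
  · rfl
  · exact smul_zero n

/-- `f ∘ stdCocFun σ c = stdCocFun σ (f c)` -/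
theorem h5lp_map_stdCocFun {G : Type} [Group G] [Finite G] (σ : G) {V W : Type}
    [AddCommGroup V] [AddCommGroup W] (f : V →+ W) (c : V) (gh : G × G) :
    f (H17C.stdCocFun σ c gh) = H17C.stdCocFun σ (f c) gh := by
  unfold H17C.stdCocFun
  split_ifs
  · rfl
  · exact map_zero f

variable {S p}

set_option maxHeartbeats 800000 in
/-- **(C2-FORM)** -/
theorem h5lp_form (hS : S.Nonempty) : H3C2.FormStatement S p hS := by
  intro hp hCMB hW
  haveI : Fact p.Prime := ⟨hp⟩
  refine h5lp_c2Key_of_fin' hS hCMB ?_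
  intro q
  obtain ⟨L, σ, hσ, a, hainv, hsupp, ⟨x, hx⟩, hnorm⟩ := hW q
  -- the invariant element of `I_L`
  obtain ⟨cI, hcI⟩ : ∃ c : (H3C2.IL S L).V, (c : Additive (ideles S)) = a :=
    ⟨⟨a, fun s => hainv s.1⟩, rfl⟩
  have hcinv : ∀ g, (H3C2.IL S L).ρ g cI = cI := by
    intro g
    obtain ⟨g, rfl⟩ := QuotientGroup.mk_surjective g
    apply Subtype.ext
    show ρI S g (cI : Additive (ideles S)) = cI
    rw [hcI]
    exact hainv g
  obtain ⟨hZ, hiff⟩ := H24C.h24c_cycCoc (GQ ⧸ L.U) (H3C2.IL S L) σ hσ cI hcinv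
  -- `p • c` is a norm
  have hpinv : ∀ g, (H3C2.IL S L).ρ g (p • cI) = p • cI := by
    intro g
    rw [map_nsmul, hcinv]
  obtain ⟨hZp, hiffp⟩ := H24C.h24c_cycCoc (GQ ⧸ L.U) (H3C2.IL S L) σ hσ (p • cI) hpinv
  have hp0 : (H2π (H3C2.IL S L)).hom ⟨H17C.stdCocFun σ (p • cI), hZp⟩ = 0 := by
    refine hiffp.2 ⟨x, ?_⟩
    apply Subtype.ext
    rw [hx]
    show p • a = ((p • cI : (H3C2.IL S L).V) : Additive (ideles S))
    rw [← hcI]
    rfl
  refine ⟨L, (H2π (H3C2.IL S L)).hom ⟨H17C.stdCocFun σ cI, hZ⟩, h5lp_fIB S L, ?_, ?_, ?_, ?_⟩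
  · -- killed by `p`
    rw [← map_nsmul]
    have e : p • (⟨H17C.stdCocFun σ cI, hZ⟩ : cocycles₂ (H3C2.IL S L))
        = ⟨H17C.stdCocFun σ (p • cI), hZp⟩ := by
      apply Subtype.ext
      exact h5lp_nsmul_stdCocFun σ p cI
    rw [e]
    exact hp0
  · -- supported at `q`
    intro q' hq'
    rw [infl₂_π, PP.H2_π]
    have e : (prIq S q').Z2 (inflZ2 (levelsS S) (Rep.of (ρI S)) L ⟨H17C.stdCocFun σ cI, hZ⟩)
        = 0 := by
      apply Subtype.ext
      funext gh
      show prL' S q' ((H17C.stdCocFun σ cI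
        ((primeLocalToGlobal q'.1 gh.1 : GQ ⧸ L.U), (primeLocalToGlobal q'.1 gh.2 : GQ ⧸ L.U))
          : (H3C2.IL S L).V) : Additive (ideles S)) = 0
      unfold H17C.stdCocFun
      split_ifs
      · rw [hcI]
        exact hsupp q' hq'
      · exact map_zero _
    rw [e, map_zero]
  · intro a'
    rfl
  · -- the image in `B_L` is not zero
    intro h0
    have hcB : ∀ g, (BL S L).ρ g ((h5lp_fIB S L).hom cI) = (h5lp_fIB S L).hom cI := by
      intro g
      have := h5lp_fIBadd_comm S L g cI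
      rw [hcinv] at this
      exact this.symm
    obtain ⟨hZB, hiffB⟩ := H24C.h24c_cycCoc (GQ ⧸ L.U) (BL S L) σ hσ
      ((h5lp_fIB S L).hom cI) hcB
    have e1 := H2π_comp_map_apply (MonoidHom.id (GQ ⧸ L.U)) (h5lp_fIB S L)
      (⟨H17C.stdCocFun σ cI, hZ⟩ : cocycles₂ (H3C2.IL S L))
    have e2 : mapCocycles₂ (MonoidHom.id (GQ ⧸ L.U)) (h5lp_fIB S L)
        (⟨H17C.stdCocFun σ cI, hZ⟩ : cocycles₂ (H3C2.IL S L))
        = (⟨H17C.stdCocFun σ ((h5lp_fIB S L).hom cI), hZB⟩ : cocycles₂ (BL S L)) := by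
      apply Subtype.ext
      funext gh
      exact h5lp_map_stdCocFun σ (h5lp_fIBadd S L) cI gh
    have e3 : (H2π (BL S L)).hom ⟨H17C.stdCocFun σ ((h5lp_fIB S L).hom cI), hZB⟩ = 0 := by
      rw [← e2, ← e1]
      exact h0
    obtain ⟨d, hd⟩ := hiffB.1 e3
    apply hnorm d
    rw [hd]
    show projBL S (cI : Additive (ideles S)) = projBL S a
    rw [hcI]

end H5LP

end
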