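/-
W2-C (S55) block C2 (C2B), sub-lemma KEY-DEC (helper24): `H24DEC.h24_keyDec`.
If `q^(p-1) ≡ 1 mod p^M` (`M ≥ 1`) and `F ≤ ℚ(ζ_{p^(M+1)})` has degree `p^M`, then the `p`-th power
of every element of the decomposition group at `q ≠ p` fixes `F`.
-/
import Mathlib
import Fermat.Agent.CFT2.C2.Dec_helper24
import Fermat.Agent.CFT2.E.LocDeg_helper24

set_option autoImplicit false
set_option linter.style.haveILetI false
set_option linter.unusedSectionVars false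
set_option linter.unusedVariables false

noncomputable section

namespace H24DEC

open H14PT H24LD ExtCitation

local notation "Qb" => AlgebraicClosure ℚ
local notation "GQ" => (AlgebraicClosure ℚ ≃ₐ[ℚ] AlgebraicClosure ℚ)

/-- `a ≡ 1 mod p^M`, `M ≥ 1` ⇒ `a^p ≡ 1 mod p^(M+1)` -/
theorem h24dec_pow_modEq {p a M : ℕ} (hM : 1 ≤ M) (h : a ≡ 1 [MOD p ^ M]) :
    a ^ p ≡ 1 [MOD p ^ (M + 1)] := by
  have h1 : ((p ^ M : ℕ) : ℤ) ∣ (a : ℤ) - 1 := by
    have := (Nat.modEq_iff_dvd.1 h.symm)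
    simpa using this
  have h2 : (p : ℤ) ∣ (a : ℤ) - 1 := by
    refine dvd_trans ?_ h1
    push_cast
    exact dvd_pow_self _ (by omega)
  have h3 : (p : ℤ) ∣ ∑ i ∈ Finset.range p, (a : ℤ) ^ i := by
    have h4 : ∀ i : ℕ, (p : ℤ) ∣ (a : ℤ) ^ i - 1 := by
      intro i
      have := sub_one_dvd_pow_sub_one (a : ℤ) i
      exact dvd_trans h2 (by simpa using this)
    have h5 : ∑ i ∈ Finset.range p, (a : ℤ) ^ i
        = ∑ i ∈ Finset.range p, ((a : ℤ) ^ i - 1) + p := by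
      rw [Finset.sum_sub_distrib]
      simp
    rw [h5]
    exact dvd_add (Finset.dvd_sum (fun i _ => h4 i)) (dvd_refl _)
  have h6 : ((p ^ (M + 1) : ℕ) : ℤ) ∣ (a : ℤ) ^ p - 1 := by
    have h7 : (a : ℤ) ^ p - 1 = ((a : ℤ) - 1) * ∑ i ∈ Finset.range p, (a : ℤ) ^ i := by
      rw [mul_comm, geom_sum_mul]
    rw [h7]
    push_cast
    rw [pow_succ]
    exact mul_dvd_mul (by simpa using h1) h3
  apply Nat.ModEq.symm
  rw [Nat.modEq_iff_dvd]
  simpa using h6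

/-- **KEY-DEC** -/
theorem h24_keyDec (p : ℕ) (q : Nat.Primes) (M : ℕ) (hp : p.Prime) (hp2 : p ≠ 2)
    (hq : (q : ℕ) ≠ p) (hM : 1 ≤ M)
    (hcong : (q : ℕ) ^ (p - 1) ≡ 1 [MOD p ^ M])
    (F : IntermediateField ℚ Qb) [FiniteDimensional ℚ F] [hgal : IsGalois ℚ F]
    (hF : Module.finrank ℚ F = p ^ M)
    (ζ : Qb) (hζ : IsPrimitiveRoot ζ (p ^ (M + 1)))
    (hle : F ≤ IntermediateField.adjoin ℚ {ζ}) (τ : Hq q) :
    (primeLocalToGlobal q τ) ^ p ∈ F.fixingSubgroup := by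
  haveI : IsGalois ℚ Qb := H15F.h15f_isGalois_Qb
  haveI hN : F.fixingSubgroup.Normal := (InfiniteGalois.normal_iff_isGalois F).mpr hgal
  set g : GQ := primeLocalToGlobal q τ with hg
  obtain ⟨j, hj⟩ := h24dec_dec p q (M + 1) ζ hp hq hζ τ
  -- powers of `g` on `ζ`
  have hpow : ∀ k : ℕ, (g ^ k) ζ = ζ ^ ((q : ℕ) ^ (j * k)) := by
    intro k
    induction k with
    | zero => simp
    | succ k ih =>
      rw [pow_succ', AlgEquiv.mul_apply, ih, map_pow, hj, ← pow_mul, ← pow_add, Nat.mul_succ,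
        add_comm]
  -- `g ^ ((p-1) p)` fixes `ζ`
  have h1 : ((q : ℕ) ^ (p - 1)) ^ p ≡ 1 [MOD p ^ (M + 1)] := h24dec_pow_modEq hM hcong
  have h2 : (q : ℕ) ^ (j * ((p - 1) * p)) ≡ 1 [MOD p ^ (M + 1)] := by
    have h3 : (q : ℕ) ^ (j * ((p - 1) * p)) = (((q : ℕ) ^ (p - 1)) ^ p) ^ j := by
      rw [← pow_mul, ← pow_mul]
      congr 1
      ring
    rw [h3]
    simpa using h1.pow j
  have h4 : (g ^ ((p - 1) * p)) ζ = ζ := by
    rw [hpow]
    have hpos : 1 ≤ (q : ℕ) ^ (j * ((p - 1) * p)) := Nat.one_le_pow _ _ q.2.pos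
    obtain ⟨c, hc⟩ := (Nat.modEq_iff_dvd' hpos).1 h2.symm
    have h5 : (q : ℕ) ^ (j * ((p - 1) * p)) = p ^ (M + 1) * c + 1 := by omega
    rw [h5, pow_add, pow_mul, hζ.pow_eq_one, one_pow, one_mul, pow_one]
  have h6 : g ^ ((p - 1) * p) ∈ F.fixingSubgroup := by
    have h7 : g ^ ((p - 1) * p) ∈ (h24ld_cyc ζ).fixingSubgroup :=
      (h24ld_mem_fixing_iff ζ _).2 h4
    exact IntermediateField.fixingSubgroup_antitone hle h7
  -- `g ^ (p ^ M)` fixes `F`
  have h8 : g ^ (p ^ M) ∈ F.fixingSubgroup := by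
    have h9 : F.fixingSubgroup.index = p ^ M := by
      rw [← IntermediateField.finrank_eq_fixingSubgroup_index, hF]
    rw [← h9]
    exact Subgroup.pow_index_mem _ g
  -- gcd
  have hgcd : Nat.gcd ((p - 1) * p) (p ^ M) = p := by
    have hc : Nat.Coprime (p - 1) (p ^ M) := by
      apply Nat.Coprime.pow_right
      rw [Nat.coprime_comm, Nat.Prime.coprime_iff_not_dvd hp]
      intro h
      have h1 := hp.two_le
      have := Nat.le_of_dvd (by omega) h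
      omega
    rw [Nat.Coprime.gcd_mul_left_cancel _ hc]
    exact Nat.gcd_eq_left (dvd_pow_self p (by omega))
  have h10 : ((g : GQ) : GQ ⧸ F.fixingSubgroup) ^ p = 1 := by
    have ha : ((g : GQ) : GQ ⧸ F.fixingSubgroup) ^ ((p - 1) * p) = 1 := by
      rw [← QuotientGroup.mk_pow]
      exact (QuotientGroup.eq_one_iff _).2 h6
    have hb : ((g : GQ) : GQ ⧸ F.fixingSubgroup) ^ (p ^ M) = 1 := by
      rw [← QuotientGroup.mk_pow]
      exact (QuotientGroup.eq_one_iff _).2 h8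
    have hd : orderOf ((g : GQ) : GQ ⧸ F.fixingSubgroup) ∣ p := by
      rw [← hgcd]
      exact Nat.dvd_gcd (orderOf_dvd_of_pow_eq_one ha) (orderOf_dvd_of_pow_eq_one hb)
    exact orderOf_dvd_iff_pow_eq_one.1 hd
  rw [← QuotientGroup.mk_pow] at h10
  exact (QuotientGroup.eq_one_iff _).1 h10

end H24DEC

end
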