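/-
W2-C (S55) block C, slice C2B, sub-slice KEY (helper3): the level of a cyclic `S`-level field.
`h3c2_level`: for `F` finite Galois over `ℚ`, unramified outside `S`, with cyclic Galois group:
the level `L` with `L.U = Gal(Qb/F)`, `GQ ⧸ L.U ≃* Aut F` (restriction), cyclic of order `[F:ℚ]`.
-/
import Fermat.Agent.CFT2.C2.NormPsi_helper3

set_option autoImplicit false
set_option linter.unusedSectionVars false
set_option linter.unusedVariables false
set_option linter.style.haveILetI false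

noncomputable section

namespace H3C2

open NumberField H14PT H15D H15F ExtCitation groupCohomology H22BC

local notation "Qb" => AlgebraicClosure ℚ
local notation "GQ" => (AlgebraicClosure ℚ ≃ₐ[ℚ] AlgebraicClosure ℚ)

variable {S : Finset Nat.Primes}

/-- the restriction isomorphism `GQ ⧸ L.U ≃* Aut F` -/
theorem h3c2_resQ_mulEquiv (L : (levelsS S).Lv) (Λ : Lev S) (hU : L.U = Λ.F.fixingSubgroup) :
    ∃ e : (GQ ⧸ L.U) ≃* H17C.AutQ Λ.F, ∀ g : GQ, e (g : GQ ⧸ L.U) = resL Λ g := by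
  have hker : ∀ x ∈ L.U, resL Λ x = 1 := by
    intro x hx
    rw [resL_eq_one_iff, ← hU]
    exact hx
  refine ⟨MulEquiv.ofBijective (QuotientGroup.lift L.U (resL Λ) hker) ⟨?_, ?_⟩, fun g => rfl⟩
  · rw [injective_iff_map_eq_one]
    intro x hx
    obtain ⟨g, rfl⟩ := QuotientGroup.mk_surjective x
    have h1 : resL Λ g = 1 := hx
    rw [resL_eq_one_iff, ← hU] at h1
    exact (QuotientGroup.eq_one_iff g).2 h1
  · intro σ
    obtain ⟨g, rfl⟩ := resL_surjective Λ σ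
    exact ⟨(g : GQ ⧸ L.U), rfl⟩

/-- the level of a Galois `S`-level field -/
def levOf (Λ : Lev S) : (levelsS S).Lv where
  U := Λ.F.fixingSubgroup
  mem := ⟨Λ.F, Λ.unr, (H9BL.levelFieldStmt S).2.2 Λ.F, rfl⟩

theorem levOf_U (Λ : Lev S) : (levOf Λ).U = Λ.F.fixingSubgroup := rfl

/-- the level of a cyclic field is cyclic of order `[F:ℚ]` -/
theorem h3c2_level (Λ : Lev S) (hcyc : IsCyclic (Λ.F ≃ₐ[ℚ] Λ.F)) :
    IsCyclic (GQ ⧸ (levOf Λ).U) ∧ Nat.card (GQ ⧸ (levOf Λ).U) = Module.finrank ℚ Λ.F := by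
  obtain ⟨e, he⟩ := h3c2_resQ_mulEquiv (levOf Λ) Λ rfl
  refine ⟨?_, ?_⟩
  · haveI := hcyc
    exact isCyclic_of_surjective e.symm e.symm.surjective
  · rw [Nat.card_congr e.toEquiv]
    exact IsGalois.card_aut_eq_finrank ℚ Λ.F

/-- a generator -/
theorem h3c2_level_gen (Λ : Lev S) (hcyc : IsCyclic (Λ.F ≃ₐ[ℚ] Λ.F)) :
    ∃ σ : GQ ⧸ (levOf Λ).U, ∀ x : GQ ⧸ (levOf Λ).U, x ∈ Subgroup.zpowers σ := by
  haveI := (h3c2_level Λ hcyc).1
  exact IsCyclic.exists_generator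

end H3C2

end
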