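/-
W2-C (S55) block C, slice C2B, sub-slice KEY (helper3): the `ψ`-values of the witnesses and the
elementary arithmetic.
* `unitP S q₀ = 1 + p ∈ ℚ_pˣ`, `unitQ q = q ∈ ℚ_qˣ`;
* `h3c2_psi_p`: `2(p-1) ψ(1 + p at p) ≠ 0` for `M ≥ 1`;
* `h3c2_psi_q`: `2(p-1) ψ(q at q) ≠ 0` if `q^{p-1} ≢ 1 mod p^{M+1}`;
* `h3c2_exists_M`, `h3c2_pow_p`.
-/
import Fermat.Agent.CFT2.C2.Defs_helper3
import Fermat.Agent.CFT2.C.CycloPsi3_helper3

set_option autoImplicit false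
set_option linter.unusedSectionVars false
set_option linter.unusedVariables false
set_option linter.style.haveILetI false

noncomputable section

namespace H3C2

open NumberField H17C H3C

/-- primes are prime. -/
local instance factPrimeOfPrimesKP (q : Nat.Primes) : Fact (q : ℕ).Prime := ⟨q.2⟩

/-! ### elementary arithmetic -/

/-- `x² ≡ 1 mod p^n`, `x ≡ 1 mod p`, `p` odd `⇒ x ≡ 1 mod p^n` -/
theorem h3c2_sq_one {p : ℕ} (hp : p.Prime) (hp2 : p ≠ 2) (n x : ℕ)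
    (h1 : x ≡ 1 [MOD p]) (h2 : x ^ 2 ≡ 1 [MOD p ^ n]) : x ≡ 1 [MOD p ^ n] := by
  have e1 : ((p ^ n : ℕ) : ℤ) ∣ ((x : ℤ) - 1) * ((x : ℤ) + 1) := by
    have := (Nat.modEq_iff_dvd.1 h2.symm)
    have e : ((x ^ 2 : ℕ) : ℤ) - ((1 : ℕ) : ℤ) = ((x : ℤ) - 1) * ((x : ℤ) + 1) := by
      push_cast; ring
    rwa [e] at this
  have e2 : IsCoprime ((p ^ n : ℕ) : ℤ) ((x : ℤ) + 1) := by
    rw [Nat.cast_pow]
    apply IsCoprime.pow_left
    rw [Prime.coprime_iff_not_dvd (Nat.prime_iff_prime_int.1 hp)]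
    intro hd
    have h3 : ((p : ℕ) : ℤ) ∣ (x : ℤ) - 1 := by
      have := (Nat.modEq_iff_dvd.1 h1.symm)
      simpa using this
    have h4 : ((p : ℕ) : ℤ) ∣ 2 := by
      have := dvd_sub hd h3
      have e : ((x : ℤ) + 1) - ((x : ℤ) - 1) = 2 := by ring
      rwa [e] at this
    have h5 : p ∣ 2 := by exact_mod_cast h4
    have h6 := (Nat.prime_dvd_prime_iff_eq hp Nat.prime_two).1 h5
    exact hp2 h6
  have e3 : ((p ^ n : ℕ) : ℤ) ∣ (x : ℤ) - 1 := e2.dvd_of_dvd_mul_right e1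
  apply Nat.ModEq.symm
  rw [Nat.modEq_iff_dvd]
  simpa using e3

/-- Fermat: `q^{p-1} ≡ 1 mod p` -/
theorem h3c2_fermat {p q : ℕ} (hp : p.Prime) (hq : q.Prime) (hqp : q ≠ p) :
    q ^ (p - 1) ≡ 1 [MOD p] := by
  have hcop : q.Coprime p := (Nat.coprime_primes hq hp).2 hqp
  have := Nat.ModEq.pow_totient hcop
  rwa [Nat.totient_prime hp] at this

/-- the minimal `M` -/
theorem h3c2_exists_M {p q : ℕ} (hp : p.Prime) (hq : q.Prime) (hqp : q ≠ p) :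
    ∃ M : ℕ, 1 ≤ M ∧ q ^ (p - 1) ≡ 1 [MOD p ^ M] ∧ ¬ q ^ (p - 1) ≡ 1 [MOD p ^ (M + 1)] := by
  classical
  have hx1 : 1 < q ^ (p - 1) := by
    apply Nat.one_lt_pow
    · have := hp.two_le; omega
    · exact hq.one_lt
  -- some `n` with `¬ ≡ 1 mod p^n`
  have hex : ∃ n : ℕ, ¬ q ^ (p - 1) ≡ 1 [MOD p ^ n] := by
    refine ⟨q ^ (p - 1), fun h => ?_⟩
    have h1 : p ^ (q ^ (p - 1)) ∣ q ^ (p - 1) - 1 := (Nat.modEq_iff_dvd' hx1.le).1 h.symm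
    have h2 : p ^ (q ^ (p - 1)) ≤ q ^ (p - 1) - 1 := Nat.le_of_dvd (by omega) h1
    have h3 : q ^ (p - 1) < p ^ (q ^ (p - 1)) := Nat.lt_pow_self hp.one_lt
    omega
  set n := Nat.find hex with hn
  have hn1 : ¬ q ^ (p - 1) ≡ 1 [MOD p ^ n] := Nat.find_spec hex
  have hn2 : 2 ≤ n := by
    by_contra hlt
    have hle : n ≤ 1 := by omega
    apply hn1
    have h1 : q ^ (p - 1) ≡ 1 [MOD p ^ 1] := by
      rw [pow_one]
      exact h3c2_fermat hp hq hqp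
    exact h1.of_dvd (pow_dvd_pow p hle)
  refine ⟨n - 1, by omega, ?_, ?_⟩
  · by_contra h
    have := Nat.find_min hex (m := n - 1) (by omega)
    exact this h
  · have e : n - 1 + 1 = n := by omega
    rw [e]
    exact hn1

/-- `x ≡ 1 mod p^M`, `M ≥ 1` `⇒ x^p ≡ 1 mod p^{M+1}` -/
theorem h3c2_pow_p {p : ℕ} (hp : p.Prime) (M x : ℕ) (hM : 1 ≤ M)
    (h : x ≡ 1 [MOD p ^ M]) : x ^ p ≡ 1 [MOD p ^ (M + 1)] := by
  have h1 : ((p ^ M : ℕ) : ℤ) ∣ (x : ℤ) - 1 := by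
    have := Nat.modEq_iff_dvd.1 h.symm
    simpa using this
  obtain ⟨t, ht⟩ := h1
  have hx : (x : ℤ) = 1 + (p : ℤ) ^ M * t := by
    have : (x : ℤ) - 1 = (p : ℤ) ^ M * t := by rw [ht]; push_cast; ring
    linarith
  -- `(1 + a)^p ≡ 1 + p a mod a²`
  have h2 : ((p : ℤ) ^ (M + 1)) ∣ (x : ℤ) ^ p - 1 := by
    rw [hx]
    set a : ℤ := (p : ℤ) ^ M * t with ha
    have hgeom : (1 + a) ^ p - 1 = a * ∑ i ∈ Finset.range p, (1 + a) ^ i := by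
      have e : (1 + a) - 1 = a := by ring
      have h3 : (∑ i ∈ Finset.range p, (1 + a) ^ i) * ((1 + a) - 1) = (1 + a) ^ p - 1 :=
        geom_sum_mul (1 + a) p
      rw [e] at h3
      rw [← h3, mul_comm]
    rw [hgeom]
    -- the sum is `≡ p mod a`, hence divisible by `p`
    have hsum : (p : ℤ) ∣ ∑ i ∈ Finset.range p, (1 + a) ^ i := by
      have hpa : (p : ℤ) ∣ a := by
        rw [ha]
        exact Dvd.dvd.mul_right (dvd_pow_self _ (by omega)) _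
      have h4 : ∀ i : ℕ, (p : ℤ) ∣ (1 + a) ^ i - 1 := by
        intro i
        have := sub_dvd_pow_sub_pow (1 + a) 1 i
        rw [one_pow] at this
        have e : (1 + a) - 1 = a := by ring
        rw [e] at this
        exact hpa.trans this
      have h5 : (∑ i ∈ Finset.range p, (1 + a) ^ i) =
          (∑ i ∈ Finset.range p, ((1 + a) ^ i - 1)) + p := by
        rw [Finset.sum_sub_distrib]
        simp
      rw [h5]
      exact dvd_add (Finset.dvd_sum (fun i _ => h4 i)) (dvd_refl _)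
    obtain ⟨s, hs⟩ := hsum
    rw [hs, ha, pow_succ]
    exact ⟨t * s, by ring⟩
  apply Nat.ModEq.symm
  rw [Nat.modEq_iff_dvd]
  push_cast
  exact h2

/-! ### the witnesses in `ℚ_S` -/

variable (S : Finset Nat.Primes)

/-- `1 + p ∈ ℚ_pˣ` -/
def unitP (q₀ : S) : ℚ_[((q₀ : Nat.Primes) : ℕ)]ˣ :=
  Units.mk0 (((1 + ((q₀ : Nat.Primes) : ℕ) : ℕ) : ℚ_[((q₀ : Nat.Primes) : ℕ)]))
    (Nat.cast_ne_zero.mpr (by omega))

/-- `q ∈ ℚ_qˣ` -/
def unitQ (q : S) : ℚ_[((q : Nat.Primes) : ℕ)]ˣ :=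
  Units.mk0 ((((q : Nat.Primes) : ℕ) : ℚ_[((q : Nat.Primes) : ℕ)]))
    (Nat.cast_ne_zero.mpr (q : Nat.Primes).2.ne_zero)

theorem suppQ_apply (q : S) (c : ℚ_[((q : Nat.Primes) : ℕ)]ˣ) (q' : S) :
    ((suppQ S q c : (QS S)ˣ) : QS S) q' =
      (((open Classical in (Pi.mulSingle q c : ∀ q' : S, ℚ_[((q' : Nat.Primes) : ℕ)]ˣ)) q' :
        ℚ_[((q' : Nat.Primes) : ℕ)]ˣ) : ℚ_[((q' : Nat.Primes) : ℕ)]) := rfl

theorem suppQ_same (q : S) (c : ℚ_[((q : Nat.Primes) : ℕ)]ˣ) :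
    ((suppQ S q c : (QS S)ˣ) : QS S) q = (c : ℚ_[((q : Nat.Primes) : ℕ)]) := by
  classical
  rw [suppQ_apply, Pi.mulSingle_eq_same]

theorem suppQ_ne (q : S) (c : ℚ_[((q : Nat.Primes) : ℕ)]ˣ) (q' : S) (h : q' ≠ q) :
    ((suppQ S q c : (QS S)ˣ) : QS S) q' = 1 := by
  classical
  rw [suppQ_apply, Pi.mulSingle_eq_of_ne h]
  rfl

variable (q₀ : S) (M : ℕ)

local notation "𝕡" => ((q₀ : Nat.Primes) : ℕ)

/-- the witness at `p` is helper17's `idelP` -/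
theorem h3c2_suppQ_p : suppQ S q₀ (unitP S q₀) = idelP S 𝕡 := by
  classical
  apply Units.ext
  funext q
  rw [h3c_idelP_apply]
  by_cases h : ((q : Nat.Primes) : ℕ) = 𝕡
  · have hq : q = q₀ := Subtype.ext (Subtype.ext h)
    subst hq
    rw [suppQ_same, if_pos rfl]
    rfl
  · have hq : q ≠ q₀ := fun e => h (by rw [e])
    rw [suppQ_ne S q₀ _ q hq, if_neg h]

/-- `2(p-1) ψ(1 + p at p) ≠ 0` for `M ≥ 1` -/
theorem h3c2_psi_p (hp2 : 𝕡 ≠ 2) (hM : 1 ≤ M) :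
    (2 * (𝕡 - 1)) • h3c_psi S q₀ M
      (Additive.ofMul (locUnit S ℚ (suppQ S q₀ (unitP S q₀))), 0) ≠ 0 := by
  intro h
  rw [h3c2_suppQ_p] at h
  have h1 := h3c_dvd_of_psi_c0 S q₀ M hp2 1 (by rw [mul_one]; exact h)
  have hp : Nat.Prime 𝕡 := (q₀ : Nat.Primes).2
  have h2 : 𝕡 ^ M = 1 := Nat.dvd_one.1 h1
  have h3 : 1 < 𝕡 ^ M := Nat.one_lt_pow (by omega) hp.one_lt
  omega

/-- the value of `ψ` at the idele `(q at q)`, `q ≠ p` -/
theorem h3c2_psiI_q (q : S) (hq : q ≠ q₀) :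
    h3c_psiI S q₀ M (locUnit S ℚ (suppQ S q (unitQ S q))) =
      (h3c_u S q₀ M ((q : Nat.Primes) : ℕ))⁻¹ := by
  classical
  rw [h3c_psiI_apply]
  have hcomp : ∀ q' : S, h3c_comp S q'
      ((locUnit S ℚ (suppQ S q (unitQ S q)) : (KS S ℚ)ˣ) : KS S ℚ) =
      ((suppQ S q (unitQ S q) : (QS S)ˣ) : QS S) q' := by
    intro q'
    show h3c_comp S q' (locRing S ℚ ((suppQ S q (unitQ S q) : (QS S)ˣ) : QS S)) = _
    rw [h3c_comp_loc]
  have h1 : h3c_chi S q₀ M (h3c_compU S q₀ (locUnit S ℚ (suppQ S q (unitQ S q)))) = 1 := by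
    have e : h3c_compU S q₀ (locUnit S ℚ (suppQ S q (unitQ S q))) = 1 := by
      apply Units.ext
      rw [h3c_compU_coe, hcomp, suppQ_ne S q _ q₀ (Ne.symm hq)]
      rfl
    rw [e, map_one]
  have h2 : ∏ q' : S, h3c_valFactor S q₀ M q' (locUnit S ℚ (suppQ S q (unitQ S q))) =
      (h3c_u S q₀ M ((q : Nat.Primes) : ℕ))⁻¹ := by
    rw [Finset.prod_eq_single q]
    · rw [h3c_valFactor_apply, hcomp, suppQ_same]
      have hv : ((unitQ S q : ℚ_[((q : Nat.Primes) : ℕ)]ˣ) :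
          ℚ_[((q : Nat.Primes) : ℕ)]).valuation = 1 := by
        show ((((q : Nat.Primes) : ℕ) : ℚ_[((q : Nat.Primes) : ℕ)])).valuation = 1
        exact Padic.valuation_p
      rw [hv, zpow_one]
    · intro q' _ hq'
      rw [h3c_valFactor_apply, hcomp, suppQ_ne S q _ q' hq', Padic.valuation_one, zpow_zero]
    · intro h
      exact absurd (Finset.mem_univ q) h
  rw [h1, h2, one_mul]

/-- `2(p-1) ψ(q at q) ≠ 0` if `q^{p-1} ≢ 1 mod p^{M+1}` -/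
theorem h3c2_psi_q (q : S) (hq : ((q : Nat.Primes) : ℕ) ≠ 𝕡) (hp2 : 𝕡 ≠ 2)
    (hM : ¬ ((q : Nat.Primes) : ℕ) ^ (𝕡 - 1) ≡ 1 [MOD 𝕡 ^ (M + 1)]) :
    (2 * (𝕡 - 1)) • h3c_psi S q₀ M
      (Additive.ofMul (locUnit S ℚ (suppQ S q (unitQ S q))), 0) ≠ 0 := by
  intro h
  have hp : Nat.Prime 𝕡 := (q₀ : Nat.Primes).2
  have hqq : q ≠ q₀ := fun e => hq (by rw [e])
  rw [h3c_psi_apply, map_zero, add_zero, toMul_ofMul, h3c2_psiI_q S q₀ M q hqq] at h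
  have h1 : ((h3c_u S q₀ M ((q : Nat.Primes) : ℕ))⁻¹) ^ (2 * (𝕡 - 1)) = 1 := by
    have := congrArg Additive.toMul h
    rw [toMul_nsmul, toMul_zero, toMul_ofMul] at this
    exact this
  rw [inv_pow, inv_eq_one] at h1
  have hcop : (((q : Nat.Primes) : ℕ)).Coprime 𝕡 :=
    (Nat.coprime_primes (q : Nat.Primes).2 hp).2 hq
  have h2 : ((((q : Nat.Primes) : ℕ) : ℕ) : ZMod (𝕡 ^ (M + 1))) ^ (2 * (𝕡 - 1)) = 1 := by
    have := congrArg (fun u : (ZMod (𝕡 ^ (M + 1)))ˣ => (u : ZMod (𝕡 ^ (M + 1)))) h1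
    simp only [Units.val_pow_eq_pow_val, Units.val_one] at this
    rwa [h3c_u_coe S q₀ M _ hcop] at this
  have h3 : (((q : Nat.Primes) : ℕ) ^ (𝕡 - 1)) ^ 2 ≡ 1 [MOD 𝕡 ^ (M + 1)] := by
    rw [← ZMod.natCast_eq_natCast_iff]
    push_cast
    rw [← pow_mul, mul_comm (𝕡 - 1) 2]
    exact h2
  exact hM (h3c2_sq_one hp hp2 (M + 1) _ (h3c2_fermat hp (q : Nat.Primes).2 hq) h3)

end H3C2

end
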