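/-
W2-C (S55) block C, slice C2B, sub-slice KEY (helper3): the assembly of the witnesses,
`KeyStatement S q₀` from KEY-X (`KeyXStatement`, helper24) and KEY-DEC (`h24_keyDec`).
-/
import Fermat.Agent.CFT2.C2.KeyLevel_helper3
import Fermat.Agent.CFT2.C2.KeyPsi_helper3
import Fermat.Agent.CFT2.C2.KeyDec_helper24

set_option autoImplicit false
set_option linter.unusedSectionVars false
set_option linter.unusedVariables false
set_option linter.style.haveILetI false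

noncomputable section

namespace H3C2

open NumberField H14PT H15D H15F ExtCitation groupCohomology H22BC

local notation "Qb" => AlgebraicClosure ℚ
local notation "GQ" => (AlgebraicClosure ℚ ≃ₐ[ℚ] AlgebraicClosure ℚ)

/-- primes are prime. -/
local instance factPrimeOfPrimesKA (q : Nat.Primes) : Fact (q : ℕ).Prime := ⟨q.2⟩

/-- **(KEY-X)** the idele `x` with `N x = p a` (helper24) -/
def KeyXStatement : Prop :=
  ∀ (S : Finset Nat.Primes) (p : ℕ), p.Prime → ∀ (q : S) (L : (levelsS S).Lv),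
    IsCyclic (GQ ⧸ L.U) → p ∣ Nat.card (GQ ⧸ L.U) →
    (∀ τ : Hq q.1, (primeLocalToGlobal q.1 τ) ^ p ∈ L.U) →
    ∀ c : ℚ_[((q : Nat.Primes) : ℕ)]ˣ,
      ∃ x : (IL S L).V,
        ((H17C.subNorm (IL S L).ρ ⊤ x : (IL S L).V) : Additive (ideles S))
          = p • Additive.ofMul (ratIdele S (suppQ S q c))

variable {S : Finset Nat.Primes}

/-- rational ideles are invariant -/
theorem h3c2_rat_inv (y : (H17C.QS S)ˣ) (g : GQ) :
    ρI S g (Additive.ofMul (ratIdele S y)) = Additive.ofMul (ratIdele S y) := by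
  rw [ρI_apply, toMul_ofMul, ratIdele_smul]

/-- the idele `(c at q)` is supported at `q` -/
theorem h3c2_rat_supp (q : S) (c : ℚ_[((q : Nat.Primes) : ℕ)]ˣ) (q' : S) (h : q' ≠ q) :
    prL' S q' (Additive.ofMul (ratIdele S (suppQ S q c))) = 0 := by
  show Additive.ofMul (prM S q' (ratIdele S (suppQ S q c))) = Additive.ofMul 1
  congr 1
  apply Subtype.ext
  rw [prM_coe]
  apply Units.ext
  rw [ratIdele_fn, suppQ_ne S q c q' h, map_one]
  rfl

/-- the witness from a layer -/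
theorem h3c2_witness (hX : KeyXStatement) (q₀ : S) (hp2 : ((q₀ : Nat.Primes) : ℕ) ≠ 2)
    (hnorm : NormPsiStatement S q₀) (M : ℕ) (hM : 1 ≤ M)
    (F : IntermediateField ℚ Qb) (hfd : FiniteDimensional ℚ F) (hgal : IsGalois ℚ F)
    (hunr : F.IsUnramifiedOutside S)
    (hfin : Module.finrank ℚ F = ((q₀ : Nat.Primes) : ℕ) ^ M)
    (hcyc : IsCyclic (F ≃ₐ[ℚ] F))
    (hι : Nonempty (F →ₐ[ℚ] CyclotomicField (((q₀ : Nat.Primes) : ℕ) ^ (M + 1)) ℚ))
    (q : S) (c : ℚ_[((q : Nat.Primes) : ℕ)]ˣ)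
    (hdec : ∀ τ : Hq q.1,
      (primeLocalToGlobal q.1 τ) ^ ((q₀ : Nat.Primes) : ℕ) ∈ F.fixingSubgroup)
    (hψ : (2 * (((q₀ : Nat.Primes) : ℕ) - 1)) • H3C.h3c_psi S q₀ M
      (Additive.ofMul (H17C.locUnit S ℚ (suppQ S q c)), 0) ≠ 0) :
    CycWitness S ((q₀ : Nat.Primes) : ℕ) q := by
  have hp : Nat.Prime ((q₀ : Nat.Primes) : ℕ) := (q₀ : Nat.Primes).2
  let Λ : Lev S := ⟨F, hfd, hgal, hunr⟩
  obtain ⟨hcycL, hcard⟩ := h3c2_level Λ hcyc
  obtain ⟨σ, hσ⟩ := h3c2_level_gen Λ hcyc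
  have hdvd : ((q₀ : Nat.Primes) : ℕ) ∣ Nat.card (GQ ⧸ (levOf Λ).U) := by
    rw [hcard]
    show ((q₀ : Nat.Primes) : ℕ) ∣ Module.finrank ℚ F
    rw [hfin]
    exact dvd_pow_self _ (by omega)
  obtain ⟨x, hx⟩ := hX S _ hp q (levOf Λ) hcycL hdvd hdec c
  refine ⟨levOf Λ, σ, hσ, Additive.ofMul (ratIdele S (suppQ S q c)),
    fun g => h3c2_rat_inv _ g, fun q' h => h3c2_rat_supp q c q' h, ⟨x, hx⟩, ?_⟩
  intro d hd
  exact hψ (@hnorm hp2 M F hfd hgal hunr hfin hι (levOf Λ) rfl (suppQ S q c) d hd)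

/-- **(C2-KEY)** from KEY-X -/
theorem h3c2_key_of (hX : KeyXStatement) (S : Finset Nat.Primes) (q₀ : S) : KeyStatement S q₀ := by
  intro hp2 hlayer hdec hnorm q
  have hp : Nat.Prime ((q₀ : Nat.Primes) : ℕ) := (q₀ : Nat.Primes).2
  have hpS : ∃ q ∈ S, ((q : Nat.Primes) : ℕ) = ((q₀ : Nat.Primes) : ℕ) := ⟨q₀.1, q₀.2, rfl⟩
  by_cases hq : ((q : Nat.Primes) : ℕ) = ((q₀ : Nat.Primes) : ℕ)
  · -- `q = p`, `M = 1`
    have hqq : q = q₀ := Subtype.ext (Subtype.ext hq)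
    subst hqq
    obtain ⟨F, hfd, hgal, hunr, hfin, hcyc, hι, ζ, hζ, hle⟩ := hlayer hp hp2 hpS 1
    refine h3c2_witness hX q hp2 hnorm 1 le_rfl F hfd hgal hunr hfin hcyc hι q (unitP S q) ?_
      (h3c2_psi_p S q 1 hp2 le_rfl)
    intro τ
    -- `|G_L| = p`
    let Λ : Lev S := ⟨F, hfd, hgal, hunr⟩
    obtain ⟨-, hcard⟩ := h3c2_level Λ hcyc
    have h1 : ((primeLocalToGlobal q.1 τ : GQ) : GQ ⧸ (levOf Λ).U) ^
        Nat.card (GQ ⧸ (levOf Λ).U) = 1 := pow_card_eq_one'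
    rw [hcard] at h1
    have h2 : Module.finrank ℚ Λ.F = ((q : Nat.Primes) : ℕ) := by
      show Module.finrank ℚ F = _
      rw [hfin, pow_one]
    rw [h2, ← QuotientGroup.mk_pow, QuotientGroup.eq_one_iff] at h1
    exact h1
  · -- `q ≠ p`
    obtain ⟨M, hM1, hcong, hncong⟩ := h3c2_exists_M hp (q : Nat.Primes).2 hq
    obtain ⟨F, hfd, hgal, hunr, hfin, hcyc, hι, ζ, hζ, hle⟩ := hlayer hp hp2 hpS M
    refine h3c2_witness hX q₀ hp2 hnorm M hM1 F hfd hgal hunr hfin hcyc hι q (unitQ S q) ?_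
      (h3c2_psi_q S q₀ M q hq hp2 hncong)
    intro τ
    exact @H24DEC.h24_keyDec _ q.1 M hp hp2 hq hM1 hcong F hfd hgal hfin ζ hζ hle τ

end H3C2

end
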