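/-
W2-C (S55), **(C2B) UNCONDITIONAL** (helper3): final wiring of block C2.

  `H3C2.h3c2_c2b S q₀ hp2 hS : H14PT.C2B S (q₀ : ℕ) hS`
  `H3C2.h3c2_c2b' S p hp hp2 hpS hS : H14PT.C2B S p hS`

Inputs: FORM (helper5), KEY-X (helper24), KEY-DEC (helper24), LAYER (helper21), DEC (helper24),
NORMPSI + KEY assembly + final assembly (helper3), CMB (helper25).
-/
import Fermat.Agent.CFT2.C2.Final_helper3
import Fermat.Agent.CFT2.C2.Form_helper5
import Fermat.Agent.CFT2.C2.KeyAsm_helper3
import Fermat.Agent.CFT2.C2.KeyX_helper24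

set_option autoImplicit false
set_option linter.unusedSectionVars false
set_option linter.unusedVariables false
set_option linter.style.haveILetI false

noncomputable section

namespace H3C2

open NumberField H14PT H15D H15F ExtCitation groupCohomology

/-- **(KEY-X)** as a statement -/
theorem h3c2_keyX : KeyXStatement :=
  fun S p hp q L hc hd hdec c => H24DEC.h24_keyX S p hp q L hc hd hdec c

/-- **(C2B)**, unconditional, for `p = q₀ ∈ S` odd. -/
theorem h3c2_c2b (S : Finset Nat.Primes) (q₀ : S) (hp2 : ((q₀ : Nat.Primes) : ℕ) ≠ 2)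
    (hS : S.Nonempty) : C2B S ((q₀ : Nat.Primes) : ℕ) hS :=
  h3c2_c2b_of S q₀ hp2 hS (H5LP.h5lp_form hS) (h3c2_key_of h3c2_keyX S q₀)

/-- **(C2B)**, unconditional, in the form used by block E. -/
theorem h3c2_c2b' (S : Finset Nat.Primes) (p : ℕ) (hp : p.Prime) (hp2 : p ≠ 2)
    (hpS : ∃ q ∈ S, ((q : Nat.Primes) : ℕ) = p) (hS : S.Nonempty) : C2B S p hS := by
  obtain ⟨q, hq, rfl⟩ := hpS
  exact h3c2_c2b S ⟨q, hq⟩ hp2 hS

end H3C2
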