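/-
W2-C (S55) block C, slice C2B, sub-slice KEY (helper16): abstract cyclic-group lemmas.
* `h16_card_pow_eq_one`: in a finite cyclic group of order divisible by the prime `p` there are
  exactly `p` elements `γ` with `γ ^ p = 1`;
* `h16_mul_pow_of_cyclic`: `(a b)^n = a^n b^n` in a cyclic group;
* `h16_prod_indicator`: `∏_γ [ (g₀ γ)^p = 1 ] c = c ^ p`.
Only Mathlib is imported.
-/
import Mathlib

set_option autoImplicit false

namespace H16KEY

section grp

variable {G : Type} [Group G] [Fintype G] [DecidableEq G]

/-- in a cyclic group of order divisible by `p` there are exactly `p` elements of order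
dividing `p` -/
theorem h16_card_pow_eq_one [IsCyclic G] {p : ℕ} (hp : p.Prime)
    (hdvd : p ∣ Nat.card G) :
    (Finset.univ.filter (fun γ : G => γ ^ p = 1)).card = p := by
  classical
  apply le_antisymm
  · exact IsCyclic.card_pow_eq_one_le hp.pos
  · obtain ⟨σ, hσ⟩ := IsCyclic.exists_generator (α := G)
    obtain ⟨m, hm⟩ := hdvd
    have hord : orderOf σ = p * m := by
      rw [orderOf_eq_card_of_forall_mem_zpowers hσ, hm]
    have hmpos : 0 < m := by
      rcases Nat.eq_zero_or_pos m with h0 | h0
      · exfalso
        have := orderOf_pos σ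
        rw [hord, h0, mul_zero] at this
        exact lt_irrefl _ this
      · exact h0
    have hmaps : ∀ j ∈ Finset.range p, σ ^ (j * m) ∈
        Finset.univ.filter (fun γ : G => γ ^ p = 1) := by
      intro j _
      rw [Finset.mem_filter]
      refine ⟨Finset.mem_univ _, ?_⟩
      rw [← pow_mul, mul_assoc, mul_comm m p, ← hord, mul_comm, pow_mul, pow_orderOf_eq_one,
        one_pow]
    have hinj : Set.InjOn (fun j : ℕ => σ ^ (j * m)) (Finset.range p : Set ℕ) := by
      intro j hj j' hj' h
      have hj1 : j < p := Finset.mem_range.1 hj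
      have hj1' : j' < p := Finset.mem_range.1 hj'
      have hlt : ∀ i < p, i * m < orderOf σ := by
        intro i hi
        rw [hord]
        exact Nat.mul_lt_mul_of_pos_right hi hmpos
      have := pow_injOn_Iio_orderOf (x := σ) (hlt j hj1) (hlt j' hj1') h
      exact Nat.eq_of_mul_eq_mul_right hmpos this
    have := Finset.card_le_card_of_injOn _ hmaps hinj
    rwa [Finset.card_range] at this

/-- commutativity in a cyclic group -/
theorem h16_mul_pow_of_cyclic {H : Type} [Group H] [IsCyclic H] (a b : H) (n : ℕ) :
    (a * b) ^ n = a ^ n * b ^ n := by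
  have hc : Commute a b := by
    obtain ⟨σ, hσ⟩ := IsCyclic.exists_generator (α := H)
    obtain ⟨i, rfl⟩ := Subgroup.mem_zpowers_iff.1 (hσ a)
    obtain ⟨j, rfl⟩ := Subgroup.mem_zpowers_iff.1 (hσ b)
    exact (Commute.refl σ).zpow_zpow i j
  exact hc.mul_pow n

/-- the product over a cyclic group (of order divisible by `p`) of the indicator of the
`p`-torsion, translated by `g₀` -/
theorem h16_prod_indicator [IsCyclic G] {p : ℕ} (hp : p.Prime)
    (hdvd : p ∣ Nat.card G) {X : Type} [CommMonoid X] (c : X) (g₀ : G) :
    ∏ γ : G, (if (g₀ * γ) ^ p = 1 then c else 1) = c ^ p := by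
  classical
  have h1 : ∏ γ : G, (if (g₀ * γ) ^ p = 1 then c else 1) =
      ∏ γ : G, (if γ ^ p = 1 then c else 1) :=
    Fintype.prod_equiv (Equiv.mulLeft g₀) _ _ (fun γ => rfl)
  rw [h1, Finset.prod_ite, Finset.prod_const, Finset.prod_const_one, mul_one]
  congr 1
  convert h16_card_pow_eq_one (G := G) hp hdvd

end grp

end H16KEY
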