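/-
W2-C (S55) block C2 (C2B), sub-lemma KEY-X (helper24): `H24DEC.h24_keyX`.
For a cyclic level `L` with `p ∣ |G_L|` such that the `p`-th powers of the decomposition group
at `q` lie in `L.U`, the rational idele `(c at q, 1 elsewhere)` satisfies `p • a = N_{G_L}(x)`:
`x_q(g) = c` if `(g mod L.U)^p = 1`, `1` otherwise.
-/
import Mathlib
import Fermat.Agent.CFT2.C2.Defs_helper3
import Fermat.Agent.CFT2.C2.KeyPsi_helper3

set_option autoImplicit false
set_option linter.style.haveILetI false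
set_option linter.unusedSectionVars false
set_option linter.unusedVariables false

noncomputable section

namespace H24DEC

open H14PT H15D H15F ExtCitation H3C2

local notation "Qb" => AlgebraicClosure ℚ
local notation "GQ" => (AlgebraicClosure ℚ ≃ₐ[ℚ] AlgebraicClosure ℚ)

/-- primes are prime. -/
local instance factPrimeOfPrimesKX (q : Nat.Primes) : Fact (q : ℕ).Prime := ⟨q.2⟩

/-- the number of solutions of `m ^ p = 1` in a cyclic group of order divisible by `p` -/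
theorem h24kx_card_pow {G : Type} [Group G] [Finite G] [IsCyclic G] {p : ℕ}
    (hdvd : p ∣ Nat.card G) (a : G) :
    Nat.card {m : G // (a * m) ^ p = 1} = p := by
  letI : CommGroup G := IsCyclic.commGroup
  have h1 : Nat.card (powMonoidHom p : G →* G).ker = p := by
    rw [IsCyclic.card_powMonoidHom_ker, Nat.gcd_eq_right hdvd]
  refine Eq.trans (Nat.card_congr ?_) h1
  exact
    { toFun := fun m => ⟨a * m.1, by rw [MonoidHom.mem_ker, powMonoidHom_apply]; exact m.2⟩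
      invFun := fun m => ⟨a⁻¹ * m.1, by
        have := m.2
        rw [MonoidHom.mem_ker, powMonoidHom_apply] at this
        rw [mul_inv_cancel_left]; exact this⟩
      left_inv := fun m => by apply Subtype.ext; simp
      right_inv := fun m => by apply Subtype.ext; simp }

section

variable (S : Finset Nat.Primes) (p : ℕ) (q : S) (L : (levelsS S).Lv)
  (c : ℚ_[((q : Nat.Primes) : ℕ)]ˣ)

/-- the value `c ∈ ℚ_qˣ ⊂ (PadicAlgCl q)ˣ` -/
def h24kx_val : (PadicAlgCl ((q : Nat.Primes) : ℕ))ˣ :=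
  Units.map ((algebraMap ℚ_[((q : Nat.Primes) : ℕ)] (PadicAlgCl ((q : Nat.Primes) : ℕ)) :
    ℚ_[((q : Nat.Primes) : ℕ)] →* PadicAlgCl ((q : Nat.Primes) : ℕ))) c

/-- the function `g ↦ c` if `(g mod L.U)^p = 1`, `1` otherwise -/
def h24kx_fun : GQ → (PadicAlgCl ((q : Nat.Primes) : ℕ))ˣ :=
  fun g => open Classical in if ((g : GQ ⧸ L.U)) ^ p = 1 then h24kx_val S q c else 1

theorem h24kx_fun_apply (g : GQ) :
    h24kx_fun S p q L c g =
      open Classical in if ((g : GQ ⧸ L.U)) ^ p = 1 then h24kx_val S q c else 1 := rfl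

theorem h24kx_val_coe :
    ((h24kx_val S q c : (PadicAlgCl ((q : Nat.Primes) : ℕ))ˣ) :
      PadicAlgCl ((q : Nat.Primes) : ℕ)) =
      algebraMap ℚ_[((q : Nat.Primes) : ℕ)] (PadicAlgCl ((q : Nat.Primes) : ℕ))
        (c : ℚ_[((q : Nat.Primes) : ℕ)]) := rfl

variable {S p q L}

theorem h24kx_fun_mem (hcyc : IsCyclic (GQ ⧸ L.U))
    (hdec : ∀ τ : Hq q.1, (primeLocalToGlobal q.1 τ) ^ p ∈ L.U) :
    h24kx_fun S p q L c ∈ idele S ((q : Nat.Primes) : ℕ) := by
  have hc : ∀ a b : GQ ⧸ L.U, Commute a b := fun a b =>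
    (IsCyclic.commGroup (α := GQ ⧸ L.U)).mul_comm a b
  refine ⟨fun τ g => ?_, ?_⟩
  · rw [h24kx_fun_apply, h24kx_fun_apply]
    have h1 : ((localGaloisToGlobal ((q : Nat.Primes) : ℕ) τ : GQ) : GQ ⧸ L.U) ^ p = 1 := by
      rw [← QuotientGroup.mk_pow]
      exact (QuotientGroup.eq_one_iff _).2 (hdec τ)
    have hpow : (((localGaloisToGlobal ((q : Nat.Primes) : ℕ) τ * g : GQ) : GQ ⧸ L.U)) ^ p
        = ((g : GQ ⧸ L.U)) ^ p := by
      rw [QuotientGroup.mk_mul, (hc _ _).mul_pow, h1, one_mul]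
    rw [hpow]
    split_ifs with h
    · apply Units.ext
      rw [unitsActLoc_coe, h24kx_val_coe]
      exact (τ.commutes _).symm
    · rw [map_one]
  · obtain ⟨F, hF, hN, hU⟩ := L.mem
    refine ⟨F, hF, fun g g' s hs => ?_⟩
    rw [h24kx_fun_apply, h24kx_fun_apply]
    have hs' : s ∈ L.U := by rw [hU]; exact hs
    have h1 : ((g * s * g' : GQ) : GQ ⧸ L.U) = ((g * g' : GQ) : GQ ⧸ L.U) := by
      rw [QuotientGroup.mk_mul, QuotientGroup.mk_mul, (QuotientGroup.eq_one_iff s).2 hs',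
        mul_one, ← QuotientGroup.mk_mul]
    rw [h1]

/-- evaluation of an idele at `(q', g)` -/
def h24kx_ev (S : Finset Nat.Primes) (q' : S) (g : GQ) :
    Additive (ideles S) →+ Additive (PadicAlgCl ((q' : Nat.Primes) : ℕ))ˣ where
  toFun f := Additive.ofMul (ideleAt.fn S ((Additive.toMul f : ideles S) q') g)
  map_zero' := rfl
  map_add' _ _ := rfl

theorem h24kx_ext {a b : Additive (ideles S)}
    (h : ∀ (q' : S) (g : GQ), h24kx_ev S q' g a = h24kx_ev S q' g b) : a = b := by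
  have : (Additive.toMul a : ideles S) = Additive.toMul b := by
    funext q'
    apply ideleAt.ext
    intro g
    exact congrArg Additive.toMul (h q' g)
  exact this

theorem h24kx_ev_rho (q' : S) (g γ : GQ) (a : Additive (ideles S)) :
    h24kx_ev S q' g (ρI S γ a) = h24kx_ev S q' (g * γ) a := rfl

/-- the idele `x` -/
def h24kx_x (hcyc : IsCyclic (GQ ⧸ L.U))
    (hdec : ∀ τ : Hq q.1, (primeLocalToGlobal q.1 τ) ^ p ∈ L.U) : ideles S :=
  open Classical in
  Pi.mulSingle (M := fun q' : S => ideleAt S q'.1) q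
    (⟨h24kx_fun S p q L c, h24kx_fun_mem c hcyc hdec⟩ : ideleAt S q.1)

theorem h24kx_ev_x_same (hcyc : IsCyclic (GQ ⧸ L.U))
    (hdec : ∀ τ : Hq q.1, (primeLocalToGlobal q.1 τ) ^ p ∈ L.U) (g : GQ) :
    h24kx_ev S q g (Additive.ofMul (h24kx_x c hcyc hdec)) =
      Additive.ofMul (h24kx_fun S p q L c g) := by
  classical
  have e : (h24kx_x c hcyc hdec) q
      = (⟨h24kx_fun S p q L c, h24kx_fun_mem c hcyc hdec⟩ : ideleAt S q.1) := by
    unfold h24kx_x
    exact Pi.mulSingle_eq_same (M := fun q' : S => ideleAt S q'.1) q _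
  show Additive.ofMul (ideleAt.fn S ((h24kx_x c hcyc hdec) q) g) = _
  rw [e]
  rfl

theorem h24kx_ev_x_ne (hcyc : IsCyclic (GQ ⧸ L.U))
    (hdec : ∀ τ : Hq q.1, (primeLocalToGlobal q.1 τ) ^ p ∈ L.U) (q' : S) (hq' : q' ≠ q)
    (g : GQ) :
    h24kx_ev S q' g (Additive.ofMul (h24kx_x c hcyc hdec)) = 0 := by
  classical
  have e : (h24kx_x c hcyc hdec) q' = 1 := by
    unfold h24kx_x
    exact Pi.mulSingle_eq_of_ne (M := fun q' : S => ideleAt S q'.1) hq' _
  show Additive.ofMul (ideleAt.fn S ((h24kx_x c hcyc hdec) q') g) = _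
  rw [e]
  rfl

/-- the underlying idele of an element of `I_L` -/
def h24kx_valHom (S : Finset Nat.Primes) (L : (levelsS S).Lv) :
    (H3C2.IL S L).V →+ Additive (ideles S) where
  toFun x := x.1
  map_zero' := rfl
  map_add' _ _ := rfl

theorem h24kx_valHom_rho (x : (H3C2.IL S L).V) (γ : GQ) :
    h24kx_valHom S L ((H3C2.IL S L).ρ (γ : GQ ⧸ L.U) x) = ρI S γ (h24kx_valHom S L x) := rfl

theorem h24kx_ev_rat_same (g : GQ) :
    h24kx_ev S q g (Additive.ofMul (H3C2.ratIdele S (H3C2.suppQ S q c))) =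
      Additive.ofMul (h24kx_val S q c) := by
  show Additive.ofMul (ideleAt.fn S (H3C2.ratIdele S (H3C2.suppQ S q c) q) g) = _
  congr 1
  apply Units.ext
  rw [H3C2.ratIdele_fn, H3C2.suppQ_same, h24kx_val_coe]

theorem h24kx_ev_rat_ne (q' : S) (hq' : q' ≠ q) (g : GQ) :
    h24kx_ev S q' g (Additive.ofMul (H3C2.ratIdele S (H3C2.suppQ S q c))) = 0 := by
  show Additive.ofMul (ideleAt.fn S (H3C2.ratIdele S (H3C2.suppQ S q c) q') g) = _
  have : ideleAt.fn S (H3C2.ratIdele S (H3C2.suppQ S q c) q') g = 1 := by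
    apply Units.ext
    rw [H3C2.ratIdele_fn, H3C2.suppQ_ne S q c q' hq', map_one]
    rfl
  rw [this]
  rfl

end

/-- **KEY-X** -/
theorem h24_keyX (S : Finset Nat.Primes) (p : ℕ) (hp : p.Prime) (q : S) (L : (levelsS S).Lv)
    (hcyc : IsCyclic (GQ ⧸ L.U)) (hdvd : p ∣ Nat.card (GQ ⧸ L.U))
    (hdec : ∀ τ : Hq q.1, (primeLocalToGlobal q.1 τ) ^ p ∈ L.U)
    (c : ℚ_[((q : Nat.Primes) : ℕ)]ˣ) :
    ∃ x : (H3C2.IL S L).V,
      ((H17C.subNorm (H3C2.IL S L).ρ ⊤ x : (H3C2.IL S L).V) : Additive (ideles S))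
        = p • Additive.ofMul (H3C2.ratIdele S (H3C2.suppQ S q c)) := by
  classical
  -- invariance
  have hinv : ∀ s : L.U, ρI S (s : GQ) (Additive.ofMul (h24kx_x c hcyc hdec))
      = Additive.ofMul (h24kx_x c hcyc hdec) := by
    intro s
    apply h24kx_ext
    intro q' g
    rw [h24kx_ev_rho]
    by_cases hq' : q' = q
    · subst hq'
      rw [h24kx_ev_x_same, h24kx_ev_x_same, h24kx_fun_apply, h24kx_fun_apply]
      have : ((g * s : GQ) : GQ ⧸ L.U) = (g : GQ ⧸ L.U) := by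
        rw [QuotientGroup.mk_mul, (QuotientGroup.eq_one_iff _).2 s.2, mul_one]
      rw [this]
    · rw [h24kx_ev_x_ne c hcyc hdec q' hq', h24kx_ev_x_ne c hcyc hdec q' hq']
  refine ⟨⟨Additive.ofMul (h24kx_x c hcyc hdec), hinv⟩, ?_⟩
  set x : (H3C2.IL S L).V := ⟨Additive.ofMul (h24kx_x c hcyc hdec), hinv⟩ with hx
  -- the terms of the norm
  have hterm : ∀ (n : GQ ⧸ L.U) (g : GQ),
      h24kx_ev S q g (h24kx_valHom S L ((H3C2.IL S L).ρ n x)) =
        if ((g : GQ ⧸ L.U) * n) ^ p = 1 then Additive.ofMul (h24kx_val S q c) else 0 := by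
    intro n g
    obtain ⟨γ, rfl⟩ := QuotientGroup.mk_surjective n
    rw [h24kx_valHom_rho, h24kx_ev_rho]
    show h24kx_ev S q (g * γ) (Additive.ofMul (h24kx_x c hcyc hdec)) = _
    rw [h24kx_ev_x_same, h24kx_fun_apply, QuotientGroup.mk_mul]
    split_ifs <;> rfl
  have hterm' : ∀ (n : GQ ⧸ L.U) (q' : S), q' ≠ q → ∀ g : GQ,
      h24kx_ev S q' g (h24kx_valHom S L ((H3C2.IL S L).ρ n x)) = 0 := by
    intro n q' hq' g
    obtain ⟨γ, rfl⟩ := QuotientGroup.mk_surjective n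
    rw [h24kx_valHom_rho, h24kx_ev_rho]
    show h24kx_ev S q' (g * γ) (Additive.ofMul (h24kx_x c hcyc hdec)) = _
    exact h24kx_ev_x_ne c hcyc hdec q' hq' _
  letI : Fintype (GQ ⧸ L.U) := Fintype.ofFinite _
  apply h24kx_ext
  intro q' g
  have hsum : h24kx_ev S q' g
      ((H17C.subNorm (H3C2.IL S L).ρ ⊤ x : (H3C2.IL S L).V) : Additive (ideles S))
      = ∑ n : GQ ⧸ L.U, h24kx_ev S q' g (h24kx_valHom S L ((H3C2.IL S L).ρ n x)) := by
    show h24kx_ev S q' g (h24kx_valHom S L (H17C.subNorm (H3C2.IL S L).ρ ⊤ x)) = _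
    unfold H17C.subNorm
    rw [map_sum, map_sum]
    exact @Fintype.sum_equiv ↥(⊤ : Subgroup (GQ ⧸ L.U)) (GQ ⧸ L.U) _ (Fintype.ofFinite _) _ _
      Subgroup.topEquiv.toEquiv _ _ (fun n => rfl)
  rw [hsum, map_nsmul]
  by_cases hq' : q' = q
  · subst hq'
    rw [h24kx_ev_rat_same]
    simp_rw [hterm]
    rw [Finset.sum_ite, Finset.sum_const, Finset.sum_const_zero, add_zero]
    congr 1
    have h1 := h24kx_card_pow hdvd (g : GQ ⧸ L.U)
    rw [Nat.card_eq_fintype_card, Fintype.card_subtype] at h1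
    exact h1
  · rw [h24kx_ev_rat_ne c q' hq', smul_zero]
    exact Finset.sum_eq_zero (fun n _ => hterm' n q' hq' g)

end H24DEC

end
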