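/-
W2-C (S55), (C2) wiring (helper5): `C2B` and `TTnlg` from (CM) and the cyclic witnesses
(`H3C2.CycWitness`, the output of C2-KEY), with `TSh2` (helper12), `TDim1 ⇐ CMB` (helper14),
`TLocNT` (helper5), `TFrGlob` (helper21) plugged in.
-/
import Mathlib
import Fermat.Agent.CFT2.C2.Form_helper5
import Fermat.Agent.CFT2.E.W_tnlg2_helper5

set_option autoImplicit false

noncomputable section

namespace H5LP

open H14PT

/-- **(C2)** from (CM) and the cyclic witnesses -/
theorem h5lp_c2b_of_witness (S : Finset Nat.Primes) (p : ℕ) [Fact p.Prime] (hS : S.Nonempty)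
    (hCMB : CMB S p) (hW : ∀ q : S, H3C2.CycWitness S p q) : C2B S p hS :=
  h5lp_c2b_of hS (tDim1_of_cmb S hCMB) (H12SH2.tSh2 S) (h5lp_form hS Fact.out hCMB hW)

/-- **the target `TTnlg`** from (CM), the cyclic witnesses and `TFin` -/
theorem h5lp_tTnlg_of_witness (S : Finset Nat.Primes) (p : ℕ) [Fact p.Prime] (hS : S.Nonempty)
    (hCMB : CMB S p) (hW : ∀ q : S, H3C2.CycWitness S p q) (hFin : TFin S p) : TTnlg S p hS :=
  H5TN.h5tn_tTnlg_of_c2b S p hS (h5lp_c2b_of_witness S p hS hCMB hW) hFin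

end H5LP

end
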